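import Mathlib
import Fermat.Agent.CFT.Coh.Defs
import Fermat.Agent.CFT.Global.Defs

/-!
# Reciprocity package [F0] (`Global.Plan.CycloCrossing`): the plan

Only `def X : Prop` in this file (namespace `Fermat.Agent.CFT.Global.Rec.Plan`).

Design: auxiliary tame prime `ℓ ≡ 1 mod p ^ μ`, unramified in `L`; `L' = L · Z₀` with `Z₀` the
subfield of degree `p ^ μ` of `ℚ(ζ_ℓ)`; `M = L(ζ_ℓ)`.

* `ClassChar`  : the idelic cyclotomic character modulo `ℓ`, pushed to a quotient
  `θ : (ℤ/ℓ)ˣ → ℤ/N` killing `-1`, as a family of homomorphisms `Ψ F : C_F → ℤ/N` on the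
  (finite) idele class groups of all number fields, with (norm) compatibility with norms,
  (gal) "lands in Galois" (the reciprocity law for `F(ζ_ℓ)/F`), (surj) surjectivity for `F`
  unramified at `ℓ`.
* `CrossTower` : the field theory — the two Galois pairs `(G', L')` and `(Gt, M)` over `(G, L)`.
* `CrossData`  : what the cohomological assembly consumes: a tower with *cyclic central* kernel
  `⟨c₀⟩` of order `n = p ^ μ`, a character `χ : G' → ℤ/n` with `χ c₀ = 1`
  (so `G' = ker χ × ⟨c₀⟩`), a function `ψ` on idele classes of `L'` which is additive on the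
  `G'`-invariant classes and kills the `⟨c₀⟩`-norms of `ker χ`-invariant classes, and a
  `c₀`-invariant class `b` whose `ker χ`-norm has `ψ`-value of exact order `n`.

Arrows (files `Rec/*.lean`):
`ClassChar → CrossTower → CrossData` (class-group algebra over the landed `ClassDescent`) and
`CrossData → Global.Plan.PGroupAxiom → Global.Plan.CycloCrossing` (pure group cohomology).
-/

set_option autoImplicit false

open CategoryTheory
open scoped Fermat.Agent.CFT.Global

namespace Fermat.Agent.CFT.Global.Rec.Plan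

open Fermat.Agent.CFT Fermat.Agent.CFT.Global

/-- [Rec-CC] **The class character** attached to `θ : (ℤ/ℓ)ˣ → ℤ/N` with `θ (-1) = 1`:
`Ψ F [a] = θ (chi_F a)` for the idelic cyclotomic character `chi_F : J_F → (ℤ/ℓ)ˣ`.

* (norm) `(G, F)` a Galois pair with fixed field `f(K)`: `Ψ K x = Ψ F b` whenever the image of
  `x` in `C_F` is the `G`-norm of `b`;
* (gal) `F = M^S` for a subgroup `S` of a Galois pair `(G, M)`, `ζ ∈ M` a primitive `ℓ`-th root of
  unity on which `G` acts through `χ`: every value of `Ψ F` is `θ (χ g)` for some `g ∈ S`;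
* (surj) if `F` is unramified at `ℓ`, every `θ w` is a value of `Ψ F`. -/
def ClassChar : Prop :=
  ∀ (ℓ : ℕ) [Fact ℓ.Prime] (N : ℕ) (θ : (ZMod ℓ)ˣ →* Multiplicative (ZMod N)), θ (-1) = 1 →
    ∃ Ψ : ∀ (F : Type) [Field F] [NumberField F], ClassGroupOf F →+ ZMod N,
      (∀ (G F K : Type) [Group G] [Fintype G] [Field F] [NumberField F] [MulSemiringAction G F]
        [FaithfulSMul G F] [Field K] [NumberField K] (f : K →+* F),
        (∀ (g : G) (x : K), g • f x = f x) →
        (∀ y : F, (∀ g : G, g • y = y) → y ∈ f.range) →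
        ∀ (x : ClassGroupOf K) (b : ClassGroupOf F),
          classMap f x = ∑ g : G, (classRep G F).ρ g b → Ψ K x = Ψ F b) ∧
      (∀ (G M F : Type) [Group G] [Fintype G] [Field M] [NumberField M] [MulSemiringAction G M]
        [FaithfulSMul G M] [Field F] [NumberField F] (j : F →+* M) (S : Subgroup G) (ζ : M)
        (χ : G →* (ZMod ℓ)ˣ),
        (∀ g ∈ S, ∀ x : F, g • j x = j x) →
        (∀ y : M, (∀ g ∈ S, g • y = y) → y ∈ j.range) →
        IsPrimitiveRoot ζ ℓ →
        (∀ g : G, g • ζ = ζ ^ ((χ g : (ZMod ℓ)ˣ) : ZMod ℓ).val) →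
        ∀ a : ClassGroupOf F, ∃ g ∈ S, Ψ F a = (θ (χ g)).toAdd) ∧
      (∀ (F : Type) [Field F] [NumberField F], UnramAt F ℓ →
        ∀ w : (ZMod ℓ)ˣ, ∃ a : ClassGroupOf F, Ψ F a = (θ w).toAdd)

/-- [Rec-T] **The crossing tower.**  Over a Galois pair `(G, L)` and for `n = p ^ μ`: a prime
`ℓ` unramified in `L`, a character `θ : (ℤ/ℓ)ˣ → ℤ/n` killing `-1`, a Galois pair `(G', L')`
over `(G, L)` whose kernel is central cyclic `⟨c₀⟩` of exponent `n`, a character
`χ : G' → ℤ/n` with `χ c₀ = 1`, and a Galois pair `(Gt, M)` over `(G', L')` containing a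
primitive `ℓ`-th root of unity `ζ` on which `Gt` acts through `χt`, with `χ ∘ πt = θ ∘ χt`.
(`M = L(ζ_ℓ)`, `Gt ≅ G × (ℤ/ℓ)ˣ`, `L' = M^H` for `H = ker πt = {π = 1, θ χt = 1}`.) -/
def CrossTower : Prop :=
  ∀ (p : ℕ) [Fact p.Prime], p ≠ 2 →
  ∀ (G L : Type) [Group G] [Fintype G] [Field L] [NumberField L] [MulSemiringAction G L]
    [FaithfulSMul G L] (μ : ℕ), 1 ≤ μ →
    ∃ (ℓ : ℕ) (_ : Fact ℓ.Prime) (θ : (ZMod ℓ)ˣ →* Multiplicative (ZMod (p ^ μ)))
      (L' : Type) (_ : Field L') (_ : NumberField L') (G' : Type) (_ : Group G')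
      (_ : Fintype G') (_ : MulSemiringAction G' L') (f : L →+* L') (π : G' →* G)
      (χ : G' →* Multiplicative (ZMod (p ^ μ))) (c₀ : G')
      (M : Type) (_ : Field M) (_ : NumberField M) (Gt : Type) (_ : Group Gt)
      (_ : Fintype Gt) (_ : MulSemiringAction Gt M) (ft : L' →+* M) (πt : Gt →* G')
      (ζ : M) (χt : Gt →* (ZMod ℓ)ˣ),
      UnramAt L ℓ ∧ θ (-1) = 1 ∧
      FaithfulSMul G' L' ∧ IsTower f π ∧
      (∀ g : G', π g = 1 ↔ g ∈ Subgroup.zpowers c₀) ∧
      (∀ g : G', c₀ * g = g * c₀) ∧ c₀ ^ (p ^ μ) = 1 ∧ χ c₀ = Multiplicative.ofAdd 1 ∧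
      FaithfulSMul Gt M ∧ IsTower ft πt ∧ IsPrimitiveRoot ζ ℓ ∧
      (∀ g : Gt, g • ζ = ζ ^ ((χt g : (ZMod ℓ)ˣ) : ZMod ℓ).val) ∧
      ∀ g : Gt, χ (πt g) = θ (χt g)

/-- [Rec] **Crossing data**: the arithmetic and field-theoretic content of `CycloCrossing`,
in the form consumed by the cohomological assembly; `n = p ^ μ`, `μ ≥ 1`. -/
def CrossData : Prop :=
  ∀ (p : ℕ) [Fact p.Prime], p ≠ 2 →
  ∀ (G L : Type) [Group G] [Fintype G] [Field L] [NumberField L] [MulSemiringAction G L]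
    [FaithfulSMul G L] (μ : ℕ), 1 ≤ μ →
    ∃ (L' : Type) (_ : Field L') (_ : NumberField L') (G' : Type) (_ : Group G')
      (_ : Fintype G') (_ : MulSemiringAction G' L') (f : L →+* L') (π : G' →* G)
      (χ : G' →* Multiplicative (ZMod (p ^ μ))) (c₀ : G')
      (ψ : ClassGroupOf L' → ZMod (p ^ μ)) (b : ClassGroupOf L'),
      FaithfulSMul G' L' ∧ IsTower f π ∧
      -- the kernel of `π` is the central cyclic group `⟨c₀⟩` of exponent `n`, and `χ c₀ = 1`
      (∀ g : G', π g = 1 ↔ g ∈ Subgroup.zpowers c₀) ∧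
      (∀ g : G', c₀ * g = g * c₀) ∧ c₀ ^ (p ^ μ) = 1 ∧ χ c₀ = Multiplicative.ofAdd 1 ∧
      -- `ψ` is additive on `G'`-invariant classes
      (∀ x y : ClassGroupOf L', (∀ g : G', (classRep G' L').ρ g x = x) →
        (∀ g : G', (classRep G' L').ρ g y = y) → ψ (x + y) = ψ x + ψ y) ∧
      -- `ψ` kills the `⟨c₀⟩`-norm of every `ker χ`-invariant class
      (∀ y : ClassGroupOf L', (∀ g : G', χ g = 1 → (classRep G' L').ρ g y = y) →
        ψ (∑ i ∈ Finset.range (p ^ μ), (classRep G' L').ρ (c₀ ^ i) y) = 0) ∧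
      -- `b` is `c₀`-invariant and the `ψ`-value of its `ker χ`-norm has exact order `n`
      (classRep G' L').ρ c₀ b = b ∧
      ∀ k : ℤ, k • ψ (∑ g : χ.ker, (classRep G' L').ρ (g : G') b) = 0 → ((p ^ μ : ℕ) : ℤ) ∣ k

end Fermat.Agent.CFT.Global.Rec.Plan
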