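import Mathlib
import Fermat.Agent.CFT.Global.Rec.Plan
import Fermat.Agent.CFT.Global.ClassDescent
import Fermat.Agent.CFT.Global.DescentIso
import Fermat.Agent.CFT.Global.TowerFactor

/-!
# Reciprocity package [F0], leaf [Rec-AR]: `ClassChar → CrossTower → CrossData`

Class-group algebra over the landed Galois descent `ClassDescent.classDescent`; no number theory.

With the notation of `Rec/Plan.lean`: `K = L'^{G'}`, `Z = L'^{ker χ}` (fixed fields inside `L'`),
`Ψ` the class character of `hC` for `θ`.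

* `ψ y := Ψ K x` if `y` is the image of `x ∈ C_K` (and `0` otherwise): additive on the
  `G'`-invariant classes (`exists_psi`);
* `kill`: for a `ker χ`-invariant class `y = ι_Z z`, the `⟨c₀⟩`-norm of `y` is the image of the
  `Gal(Z/K)`-norm of `z`, so `ψ` of it is `Ψ Z z` (norm), which is `θ (χt g)` for some
  `g ∈ Gt` fixing `Z` (gal), i.e. `χ (πt g) = 1`;
* `order`: `b` the image of `b₀ ∈ C_L` with `Ψ L b₀ = 1` (surj); its `ker χ`-norm is the image of
  the `G`-norm of `b₀`, whose `ψ`-value is `Ψ L b₀ = 1` (norm).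
-/

set_option autoImplicit false

namespace Fermat.Agent.CFT.Global.Rec.Arith

open Fermat.Agent.CFT Fermat.Agent.CFT.Global
open scoped Fermat.Agent.CFT.Global

/-! ### Functoriality of `classMap` -/

section Comp

variable {L L' L'' : Type} [Field L] [CharZero L] [Field L'] [CharZero L'] [Field L'']
  [CharZero L'']

theorem semiLocalMap_comp (q : ℕ) [Fact q.Prime] (f : L →+* L') (g : L' →+* L'')
    (x : SemiLocal L q) :
    semiLocalMap q (g.comp f) x = semiLocalMap q g (semiLocalMap q f x) := by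
  induction x using TensorProduct.induction_on with
  | zero => rw [map_zero, map_zero, map_zero]
  | tmul a c => rfl
  | add x y hx hy => rw [map_add, map_add, map_add, hx, hy]

theorem ideleProdMap_comp (f : L →+* L') (g : L' →+* L'') (x : IdeleProd L) :
    ideleProdMap (g.comp f) x = ideleProdMap g (ideleProdMap f x) := by
  funext q
  apply Units.ext
  exact semiLocalMap_comp (q : ℕ) f g _

theorem classMap_comp (f : L →+* L') (g : L' →+* L'') (c : ClassGroupOf L) :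
    classMap (g.comp f) c = classMap g (classMap f c) := by
  obtain ⟨x, hx, rfl⟩ := ClassDescent.exists_mkC c
  rw [ClassDescent.classMap_mkC, ClassDescent.classMap_mkC, ClassDescent.classMap_mkC]
  congr 1
  exact ideleProdMap_comp f g x

end Comp

/-! ### Group theory of `χ`, `c₀` -/

section Chi

variable {n : ℕ} [NeZero n] {G' : Type} [Group G'] (χ : G' →* Multiplicative (ZMod n)) (c₀ : G')

theorem chi_pow (hχc : χ c₀ = Multiplicative.ofAdd 1) (i : ℕ) :
    χ (c₀ ^ i) = Multiplicative.ofAdd (i : ZMod n) := by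
  rw [map_pow, hχc, ← ofAdd_nsmul, nsmul_one]

theorem exists_pow_chi_eq (hχc : χ c₀ = Multiplicative.ofAdd 1) (g : G') :
    ∃ i ∈ Finset.range n, χ (c₀ ^ i) = χ g := by
  refine ⟨(Multiplicative.toAdd (χ g)).val, Finset.mem_range.2 (ZMod.val_lt _), ?_⟩
  rw [chi_pow χ c₀ hχc, ZMod.natCast_zmod_val]
  rfl

theorem pow_inj_of_chi (hχc : χ c₀ = Multiplicative.ofAdd 1) {i j : ℕ} (hi : i < n) (hj : j < n)
    (h : χ (c₀ ^ i) = χ (c₀ ^ j)) : i = j := by
  rw [chi_pow χ c₀ hχc, chi_pow χ c₀ hχc] at h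
  have h' : (i : ZMod n) = (j : ZMod n) := Multiplicative.ofAdd.injective h
  rw [ZMod.natCast_eq_natCast_iff] at h'
  exact Nat.ModEq.eq_of_lt_of_lt h' hi hj

theorem map_eq_iff_mem_ker {A B : Type*} [Group A] [Group B] (η : A →* B) (a b : A) :
    η a = η b ↔ a⁻¹ * b ∈ η.ker := by
  rw [MonoidHom.mem_ker, map_mul, map_inv, inv_mul_eq_one]

theorem map_eq_iff_of_ker_eq {A B C : Type*} [Group A] [Group B] [Group C] (φ : A →* B)
    (η : A →* C) (h : φ.ker = η.ker) (a b : A) : φ a = φ b ↔ η a = η b := by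
  rw [map_eq_iff_mem_ker φ, map_eq_iff_mem_ker η, h]

/-- A sum over a quotient of `G'` with kernel `ker χ` is a sum over the powers of `c₀`. -/
theorem sum_quot_eq {Gz : Type} [Group Gz] [Fintype Gz] (πZ : G' →* Gz)
    (hsurj : Function.Surjective πZ) (hπZ : πZ.ker = χ.ker)
    (hχc : χ c₀ = Multiplicative.ofAdd 1) {A : Type*} [AddCommMonoid A] (F : Gz → A) :
    ∑ γ : Gz, F γ = ∑ i ∈ Finset.range n, F (πZ (c₀ ^ i)) := by
  classical
  have hinj : Set.InjOn (fun i : ℕ => πZ (c₀ ^ i)) (Finset.range n : Set ℕ) := by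
    intro i hi j hj hij
    have hi' : i < n := Finset.mem_range.1 hi
    have hj' : j < n := Finset.mem_range.1 hj
    exact pow_inj_of_chi χ c₀ hχc hi' hj' ((map_eq_iff_of_ker_eq πZ χ hπZ _ _).1 hij)
  have himg : (Finset.range n).image (fun i : ℕ => πZ (c₀ ^ i)) = Finset.univ := by
    ext γ
    simp only [Finset.mem_image, Finset.mem_univ, iff_true]
    obtain ⟨g, rfl⟩ := hsurj γ
    obtain ⟨i, hi, hig⟩ := exists_pow_chi_eq χ c₀ hχc g
    exact ⟨i, hi, (map_eq_iff_of_ker_eq πZ χ hπZ _ _).2 hig⟩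
  rw [← himg, Finset.sum_image hinj]

/-- `π` restricted to `ker χ` is a bijection onto `G` when `ker π = ⟨c₀⟩`. -/
theorem bijective_ker_chi {G : Type} [Group G] (π : G' →* G) (hsurj : Function.Surjective π)
    (hker : ∀ g : G', π g = 1 ↔ g ∈ Subgroup.zpowers c₀) (hpow : c₀ ^ n = 1)
    (hχc : χ c₀ = Multiplicative.ofAdd 1) :
    Function.Bijective (fun g : χ.ker => π (g : G')) := by
  constructor
  · intro g₁ g₂ h
    have h1 : ((g₁ : G')⁻¹ * (g₂ : G')) ∈ Subgroup.zpowers c₀ := by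
      rw [← hker, map_mul, map_inv, inv_mul_eq_one]
      exact h
    obtain ⟨k, hk⟩ := Subgroup.mem_zpowers_iff.1 h1
    have h2 : χ ((g₁ : G')⁻¹ * (g₂ : G')) = 1 := by
      rw [map_mul, map_inv, MonoidHom.mem_ker.1 g₁.2, MonoidHom.mem_ker.1 g₂.2, inv_one, one_mul]
    rw [← hk, map_zpow, hχc, ← ofAdd_zsmul, zsmul_one] at h2
    have h3 : ((k : ℤ) : ZMod n) = 0 := Multiplicative.ofAdd.injective h2
    obtain ⟨m, rfl⟩ := (ZMod.intCast_zmod_eq_zero_iff_dvd k n).1 h3
    rw [zpow_mul, zpow_natCast, hpow, one_zpow] at hk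
    apply Subtype.ext
    exact inv_mul_eq_one.1 hk.symm
  · intro h
    obtain ⟨g₁, rfl⟩ := hsurj h
    obtain ⟨i, -, hi⟩ := exists_pow_chi_eq χ c₀ hχc g₁
    refine ⟨⟨(c₀ ^ i)⁻¹ * g₁, ?_⟩, ?_⟩
    · rw [MonoidHom.mem_ker, map_mul, map_inv, hi, inv_mul_cancel]
    · show π ((c₀ ^ i)⁻¹ * g₁) = π g₁
      have h1 : π (c₀ ^ i) = 1 := (hker _).2 (Subgroup.pow_mem _ (Subgroup.mem_zpowers c₀) i)
      rw [map_mul, map_inv, h1, inv_one, one_mul]

end Chi

/-! ### Norms in the class module -/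

section Norm

variable {G L : Type} [Group G] [Fintype G] [Field L] [CharZero L] [MulSemiringAction G L]

/-- The norm of a class is invariant. -/
theorem rho_sum (c : ClassGroupOf L) (g : G) :
    (classRep G L).ρ g (∑ h : G, (classRep G L).ρ h c) = ∑ h : G, (classRep G L).ρ h c := by
  rw [map_sum]
  refine Fintype.sum_equiv (Equiv.mulLeft g) _ _ (fun h => ?_)
  show (classRep G L).ρ g ((classRep G L).ρ h c) = (classRep G L).ρ (g * h) c
  rw [map_mul]
  rfl

end Norm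

/-! ### The function `ψ` -/

section Psi

variable {n : ℕ}

/-- `ψ`: the class character of the fixed field `K` of `G'`, transported to the invariant
classes of `L'`. -/
theorem exists_psi {K L' Gk G' : Type} [Field K] [NumberField K] [Field L'] [NumberField L']
    [Group Gk] [Group G'] [Fintype G'] [MulSemiringAction Gk K] [MulSemiringAction G' L']
    [FaithfulSMul G' L'] [Subsingleton Gk] (ΨK : ClassGroupOf K →+ ZMod n)
    (ιK : K →+* L') (πK : G' →* Gk) (hK : IsTower ιK πK) :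
    ∃ ψ : ClassGroupOf L' → ZMod n,
      (∀ x : ClassGroupOf K, ψ (classMap ιK x) = ΨK x) ∧
      ∀ x y : ClassGroupOf L', (∀ g : G', (classRep G' L').ρ g x = x) →
        (∀ g : G', (classRep G' L').ρ g y = y) → ψ (x + y) = ψ x + ψ y := by
  classical
  obtain ⟨hinj, hsurj, -⟩ := ClassDescent.classDescent K L' Gk G' ιK πK hK
  let ψ : ClassGroupOf L' → ZMod n := fun y =>
    if h : ∃ x : ClassGroupOf K, classMap ιK x = y then ΨK h.choose else 0
  have hψ : ∀ x : ClassGroupOf K, ψ (classMap ιK x) = ΨK x := by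
    intro x
    have h : ∃ x' : ClassGroupOf K, classMap ιK x' = classMap ιK x := ⟨x, rfl⟩
    have e : ψ (classMap ιK x) = ΨK h.choose := dif_pos h
    rw [e, hinj h.choose_spec]
  refine ⟨ψ, hψ, fun x y hx hy => ?_⟩
  obtain ⟨x₀, rfl⟩ := hsurj x (fun g _ => hx g)
  obtain ⟨y₀, rfl⟩ := hsurj y (fun g _ => hy g)
  rw [← map_add, hψ, hψ, hψ, map_add]

end Psi

/-! ### The two arithmetic clauses -/

section Clauses

variable {n ℓ : ℕ} [NeZero n] (θ : (ZMod ℓ)ˣ →* Multiplicative (ZMod n))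
  (Ψ : ∀ (F : Type) [Field F] [NumberField F], ClassGroupOf F →+ ZMod n)

/-- **KILL**: `ψ` vanishes on the `⟨c₀⟩`-norms of `ker χ`-invariant classes. -/
theorem kill
    (hnorm : ∀ (G F K : Type) [Group G] [Fintype G] [Field F] [NumberField F]
      [MulSemiringAction G F] [FaithfulSMul G F] [Field K] [NumberField K] (f : K →+* F),
      (∀ (g : G) (x : K), g • f x = f x) →
      (∀ y : F, (∀ g : G, g • y = y) → y ∈ f.range) →
      ∀ (x : ClassGroupOf K) (b : ClassGroupOf F),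
        classMap f x = ∑ g : G, (classRep G F).ρ g b → Ψ K x = Ψ F b)
    (hgal : ∀ (G M F : Type) [Group G] [Fintype G] [Field M] [NumberField M]
      [MulSemiringAction G M] [FaithfulSMul G M] [Field F] [NumberField F] (j : F →+* M)
      (S : Subgroup G) (ζ : M) (χ : G →* (ZMod ℓ)ˣ),
      (∀ g ∈ S, ∀ x : F, g • j x = j x) →
      (∀ y : M, (∀ g ∈ S, g • y = y) → y ∈ j.range) →
      IsPrimitiveRoot ζ ℓ →
      (∀ g : G, g • ζ = ζ ^ ((χ g : (ZMod ℓ)ˣ) : ZMod ℓ).val) →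
      ∀ a : ClassGroupOf F, ∃ g ∈ S, Ψ F a = (θ (χ g)).toAdd)
    {K Z L' M Gk Gz G' Gt : Type}
    [Field K] [NumberField K] [Field Z] [NumberField Z] [Field L'] [NumberField L']
    [Field M] [NumberField M]
    [Group Gk] [Group Gz] [Fintype Gz] [Group G'] [Fintype G'] [Group Gt] [Fintype Gt]
    [MulSemiringAction Gk K] [MulSemiringAction Gz Z] [MulSemiringAction G' L']
    [MulSemiringAction Gt M]
    [FaithfulSMul Gz Z] [FaithfulSMul G' L'] [FaithfulSMul Gt M] [Subsingleton Gk]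
    (ιKZ : K →+* Z) (πZK : Gz →* Gk) (hKZ : IsTower ιKZ πZK)
    (ιZ : Z →+* L') (πZ : G' →* Gz) (hZ : IsTower ιZ πZ)
    (ft : L' →+* M) (πt : Gt →* G') (hM : IsTower ft πt)
    (χ : G' →* Multiplicative (ZMod n)) (c₀ : G') (hπZ : πZ.ker = χ.ker)
    (hχc : χ c₀ = Multiplicative.ofAdd 1)
    (ζ : M) (χt : Gt →* (ZMod ℓ)ˣ) (hζ : IsPrimitiveRoot ζ ℓ)
    (hχt : ∀ g : Gt, g • ζ = ζ ^ ((χt g : (ZMod ℓ)ˣ) : ZMod ℓ).val)
    (hcomp : ∀ g : Gt, χ (πt g) = θ (χt g))
    (ψ : ClassGroupOf L' → ZMod n)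
    (hψ : ∀ x : ClassGroupOf K, ψ (classMap (ιZ.comp ιKZ) x) = Ψ K x)
    (y : ClassGroupOf L') (hy : ∀ g : G', χ g = 1 → (classRep G' L').ρ g y = y) :
    ψ (∑ i ∈ Finset.range n, (classRep G' L').ρ (c₀ ^ i) y) = 0 := by
  obtain ⟨-, hZsurj, hZeq⟩ := ClassDescent.classDescent Z L' Gz G' ιZ πZ hZ
  obtain ⟨z, rfl⟩ := hZsurj y (fun g hg => hy g (by
    rw [hπZ] at hg
    exact MonoidHom.mem_ker.1 hg))
  obtain ⟨-, hKZsurj, -⟩ := ClassDescent.classDescent K Z Gk Gz ιKZ πZK hKZ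
  obtain ⟨x, hx⟩ := hKZsurj (∑ γ : Gz, (classRep Gz Z).ρ γ z : ClassGroupOf Z)
    (fun g _ => rho_sum z g)
  -- the `⟨c₀⟩`-norm upstairs is the image of the norm of `z`
  have hs : (∑ i ∈ Finset.range n, (classRep G' L').ρ (c₀ ^ i) (classMap ιZ z) :
      ClassGroupOf L') = classMap ιZ (∑ γ : Gz, (classRep Gz Z).ρ γ z : ClassGroupOf Z) := by
    rw [map_sum, sum_quot_eq χ c₀ πZ hZ.surj hπZ hχc]
    refine Finset.sum_congr rfl (fun i _ => ?_)
    rw [hZeq]
  rw [hs, ← hx, ← classMap_comp, hψ]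
  -- (norm) for `Z / K`
  have h1 : Ψ K x = Ψ Z z := by
    refine hnorm Gz Z K ιKZ (fun g a => ?_) (fun b hb => hKZ.fixed b (fun g _ => hb g)) x z hx
    rw [← hKZ.equivariant, Subsingleton.elim (πZK g) 1, one_smul]
  -- (gal) for `M / Z`
  obtain ⟨g, hgS, hg⟩ := hgal Gt M Z (ft.comp ιZ) (χ.comp πt).ker ζ χt
    (fun g hg a => by
      show g • ft (ιZ a) = ft (ιZ a)
      rw [← hM.equivariant]
      congr 1
      refine TowerFactor.apply_ker_smul hZ (πt g) ?_ a
      rw [hπZ]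
      exact hg)
    (fun b hb => by
      obtain ⟨b', rfl⟩ := hM.fixed b (fun g hg => hb g (by
        rw [MonoidHom.mem_ker] at hg ⊢
        show χ (πt g) = 1
        rw [hg, map_one]))
      obtain ⟨z', rfl⟩ := hZ.fixed b' (fun h hh => by
        obtain ⟨g, rfl⟩ := hM.surj h
        apply ft.injective
        rw [hM.equivariant]
        refine hb g ?_
        rw [hπZ] at hh
        exact hh)
      exact ⟨z', rfl⟩)
    hζ hχt z
  rw [h1, hg, ← hcomp]
  have h2 : χ (πt g) = 1 := hgS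
  rw [h2]
  rfl

/-- **ORDER**: a `c₀`-invariant class whose `ker χ`-norm has `ψ`-value `1`. -/
theorem order
    (hnorm : ∀ (G F K : Type) [Group G] [Fintype G] [Field F] [NumberField F]
      [MulSemiringAction G F] [FaithfulSMul G F] [Field K] [NumberField K] (f : K →+* F),
      (∀ (g : G) (x : K), g • f x = f x) →
      (∀ y : F, (∀ g : G, g • y = y) → y ∈ f.range) →
      ∀ (x : ClassGroupOf K) (b : ClassGroupOf F),
        classMap f x = ∑ g : G, (classRep G F).ρ g b → Ψ K x = Ψ F b)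
    (hsurj : ∀ (F : Type) [Field F] [NumberField F], UnramAt F ℓ →
      ∀ w : (ZMod ℓ)ˣ, ∃ a : ClassGroupOf F, Ψ F a = (θ w).toAdd)
    {K L L' Gk G G' : Type}
    [Field K] [NumberField K] [Field L] [NumberField L] [Field L'] [NumberField L']
    [Group Gk] [Group G] [Fintype G] [Group G'] [Fintype G']
    [MulSemiringAction Gk K] [MulSemiringAction G L] [MulSemiringAction G' L']
    [FaithfulSMul G L] [FaithfulSMul G' L'] [Subsingleton Gk]
    (j₀ : K →+* L) (πLK : G →* Gk) (hKL : IsTower j₀ πLK)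
    (f : L →+* L') (π : G' →* G) (hL : IsTower f π)
    (χ : G' →* Multiplicative (ZMod n)) (c₀ : G')
    (hker : ∀ g : G', π g = 1 ↔ g ∈ Subgroup.zpowers c₀) (hpow : c₀ ^ n = 1)
    (hχc : χ c₀ = Multiplicative.ofAdd 1)
    (hun : UnramAt L ℓ) (w : (ZMod ℓ)ˣ) (hw : θ w = Multiplicative.ofAdd 1)
    (ψ : ClassGroupOf L' → ZMod n)
    (hψ : ∀ x : ClassGroupOf K, ψ (classMap (f.comp j₀) x) = Ψ K x)
    [Fintype ↥χ.ker] :
    ∃ b : ClassGroupOf L', (classRep G' L').ρ c₀ b = b ∧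
      ∀ k : ℤ, k • ψ (∑ g : χ.ker, (classRep G' L').ρ (g : G') b) = 0 → ((n : ℕ) : ℤ) ∣ k := by
  obtain ⟨b₀, hb₀⟩ := hsurj L hun w
  obtain ⟨-, -, hLeq⟩ := ClassDescent.classDescent L L' G G' f π hL
  refine ⟨classMap f b₀, ?_, fun k hk => ?_⟩
  · rw [← hLeq, (hker c₀).2 (Subgroup.mem_zpowers c₀), map_one]
    rfl
  · have hbij := bijective_ker_chi χ c₀ π hL.surj hker hpow hχc
    have ha : (∑ g : χ.ker, (classRep G' L').ρ (g : G') (classMap f b₀) : ClassGroupOf L') =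
        classMap f (∑ h : G, (classRep G L).ρ h b₀ : ClassGroupOf L) := by
      rw [map_sum, ← hbij.sum_comp (fun h : G => classMap f ((classRep G L).ρ h b₀))]
      refine Finset.sum_congr rfl (fun g _ => ?_)
      rw [hLeq]
    obtain ⟨-, hKLsurj, -⟩ := ClassDescent.classDescent K L Gk G j₀ πLK hKL
    obtain ⟨x, hx⟩ := hKLsurj (∑ h : G, (classRep G L).ρ h b₀ : ClassGroupOf L)
      (fun g _ => rho_sum b₀ g)
    have h1 : Ψ K x = Ψ L b₀ := by
      refine hnorm G L K j₀ (fun g a => ?_) (fun b hb => hKL.fixed b (fun g _ => hb g)) x b₀ hx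
      rw [← hKL.equivariant, Subsingleton.elim (πLK g) 1, one_smul]
    rw [ha, ← hx, ← classMap_comp, hψ, h1, hb₀, hw] at hk
    have h2 : ((k : ℤ) : ZMod n) = 0 := by
      have h3 : k • (1 : ZMod n) = 0 := hk
      rwa [zsmul_one] at h3
    exact (ZMod.intCast_zmod_eq_zero_iff_dvd k n).1 h2

end Clauses

/-! ### The theorem -/

/-- **[Rec-AR]** `CrossData` from the class character and the crossing tower. -/
theorem crossData (hC : Rec.Plan.ClassChar) (hT : Rec.Plan.CrossTower) : Rec.Plan.CrossData := by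
  intro p hp hp2 G L _ _ _ _ _ _ μ hμ
  obtain ⟨ℓ, hℓ, θ, L', iF, iN, G', iG, iFin, iAct, f, π, χ, c₀, M, _, _, Gt, _, _, _, ft, πt,
    ζ, χt,
    hun, hθ, hfaith', hL, hker, hcen, hpow, hχc, hfaitht, hM, hζ, hχt, hcomp⟩ :=
    hT p hp2 G L μ hμ
  obtain ⟨Ψ, hnorm, hgal, hsurj⟩ := hC ℓ (p ^ μ) θ hθ
  haveI : NeZero (p ^ μ) := ⟨pow_ne_zero _ hp.out.ne_zero⟩
  haveI := hfaith'
  haveI := hfaitht
  -- the fixed fields `K = L'^{G'}` and `Z = L'^{ker χ}`
  letI aK : MulSemiringAction (G' ⧸ (⊤ : Subgroup G')) (DescentIso.Fix G' L' ⊤) :=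
    DescentIso.fixAct G' L' ⊤
  haveI nK : NumberField (DescentIso.Fix G' L' ⊤) := DescentIso.numberField_fix G' L' ⊤
  letI aZ : MulSemiringAction (G' ⧸ χ.ker) (DescentIso.Fix G' L' χ.ker) :=
    DescentIso.fixAct G' L' χ.ker
  haveI nZ : NumberField (DescentIso.Fix G' L' χ.ker) := DescentIso.numberField_fix G' L' χ.ker
  haveI fZ : FaithfulSMul (G' ⧸ χ.ker) (DescentIso.Fix G' L' χ.ker) :=
    DescentIso.faithful_fixAct G' L' χ.ker
  letI : Fintype (G' ⧸ χ.ker) := Fintype.ofFinite _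
  haveI : Subsingleton (G' ⧸ (⊤ : Subgroup G')) := QuotientGroup.subsingleton_quotient_top
  have hK : IsTower (FixedPoints.subfield (⊤ : Subgroup G') L').subtype
      (QuotientGroup.mk' (⊤ : Subgroup G')) := DescentIso.isTower_fix G' L' ⊤
  have hZ : IsTower (FixedPoints.subfield χ.ker L').subtype (QuotientGroup.mk' χ.ker) :=
    DescentIso.isTower_fix G' L' χ.ker
  obtain ⟨ιKZ, πZK, hsq1, -, hKZ⟩ := TowerFactor.exists_factor hK hZ (by
    rw [QuotientGroup.ker_mk', QuotientGroup.ker_mk']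
    exact le_top)
  obtain ⟨j₀, πLK, hsq2, -, hKL⟩ := TowerFactor.exists_factor hK hL (by
    rw [QuotientGroup.ker_mk']
    exact le_top)
  obtain ⟨ψ, hψ, hadd⟩ := exists_psi (Ψ (DescentIso.Fix G' L' ⊤))
    (FixedPoints.subfield (⊤ : Subgroup G') L').subtype (QuotientGroup.mk' (⊤ : Subgroup G')) hK
  obtain ⟨w, hw⟩ : ∃ w : (ZMod ℓ)ˣ, θ w = Multiplicative.ofAdd 1 := by
    obtain ⟨g, hg⟩ := hM.surj c₀
    exact ⟨χt g, by rw [← hcomp, hg, hχc]⟩
  obtain ⟨b, hb1, hb2⟩ := order θ Ψ hnorm hsurj j₀ πLK hKL f π hL χ c₀ hker hpow hχc hun w hw ψ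
    (by rw [hsq2]; exact hψ)
  refine ⟨L', iF, iN, G', iG, iFin, iAct, f, π, χ, c₀, ψ, b, hfaith', hL, hker, hcen, hpow, hχc,
    hadd, ?_, hb1, hb2⟩
  intro y hy
  exact kill θ Ψ hnorm hgal ιKZ πZK hKZ _ (QuotientGroup.mk' χ.ker) hZ ft πt hM χ c₀
    (QuotientGroup.ker_mk' _) hχc ζ χt hζ hχt hcomp ψ (by rw [hsq1]; exact hψ) y hy

end Fermat.Agent.CFT.Global.Rec.Arith
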