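import Mathlib

/-!
# [F0] reciprocity package: the carry cocycle of a character `χ : G → ℤ/n`

`G` a finite group, `A : Rep ℤ G`, `χ : G →* Multiplicative (ZMod n)`, `c₀ : G`.

* `val χ g` : the representative `< n` of `χ g`;
* `kap A χ a` : the 2-cochain `(g, h) ↦ a` if `val χ g + val χ h ≥ n`, else `0`
  (`= fun x => if n ≤ (χ x.1).toAdd.val + (χ x.2).toAdd.val then a else 0` by `rfl`);
  `kap_mem_cocycles₂` : it is a 2-cocycle when `a` is `G`-invariant;
* `sumKer A χ x = ∑ g : χ.ker, A.ρ g x` and its invariance properties when `c₀` is central with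
  `χ c₀ = 1 ∈ ℤ/n`.
-/

set_option autoImplicit false
set_option linter.unusedSectionVars false

open CategoryTheory groupCohomology

namespace Fermat.Agent.CFT.Global.Rec.Carry


section Abstract

variable {G : Type} [Group G] [Fintype G] (A : Rep.{0} ℤ G) {n : ℕ}
  (χ : G →* Multiplicative (ZMod n)) (c₀ : G)

theorem rho_mul (g h : G) (x : A.V) : A.ρ (g * h) x = A.ρ g (A.ρ h x) := by
  rw [map_mul]
  rfl

/-- The `χ`-value of `g`, as a natural number `< n`. -/
def val (g : G) : ℕ := (Multiplicative.toAdd (χ g)).val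

theorem chi_pow (hχc : χ c₀ = Multiplicative.ofAdd 1) (i : ℕ) :
    Multiplicative.toAdd (χ (c₀ ^ i)) = (i : ZMod n) := by
  rw [map_pow, hχc, toAdd_pow, toAdd_ofAdd, nsmul_one]

theorem val_lt [NeZero n] (g : G) : val χ g < n := ZMod.val_lt _

theorem val_mul [NeZero n] (g h : G) : val χ (g * h) = (val χ g + val χ h) % n := by
  unfold val
  rw [map_mul, toAdd_mul, ZMod.val_add]

theorem val_eq_zero {g : G} (hg : χ g = 1) : val χ g = 0 := by
  unfold val
  rw [hg, toAdd_one, ZMod.val_zero]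

theorem val_pow [NeZero n] (hχc : χ c₀ = Multiplicative.ofAdd 1) (i : ℕ) :
    val χ (c₀ ^ i) = i % n := by
  unfold val
  rw [chi_pow χ c₀ hχc, ZMod.val_natCast]

theorem val_c [NeZero n] (hχc : χ c₀ = Multiplicative.ofAdd 1) (hn : 1 < n) : val χ c₀ = 1 := by
  have h := val_pow χ c₀ hχc 1
  rwa [pow_one, Nat.mod_eq_of_lt hn] at h

/-- The carry cochain attached to `a`. -/
def kap (a : A.V) : G × G → A.V := fun x => if n ≤ val χ x.1 + val χ x.2 then a else 0

theorem kap_apply (a : A.V) (g h : G) :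
    kap A χ a (g, h) = if n ≤ val χ g + val χ h then a else 0 := rfl

theorem kap_mem_cocycles₂ [NeZero n] (a : A.V) (ha : ∀ g, A.ρ g a = a) :
    kap A χ a ∈ cocycles₂ A := by
  rw [mem_cocycles₂_iff]
  intro g h j
  have hg := val_lt χ g
  have hh := val_lt χ h
  have hj := val_lt χ j
  simp only [kap_apply, val_mul]
  have e1 : (val χ g + val χ h) % n =
      if n ≤ val χ g + val χ h then val χ g + val χ h - n else val χ g + val χ h := by
    split_ifs with h1
    · rw [Nat.mod_eq_sub_mod h1, Nat.mod_eq_of_lt (by omega)]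
    · exact Nat.mod_eq_of_lt (by omega)
  have e2 : (val χ h + val χ j) % n =
      if n ≤ val χ h + val χ j then val χ h + val χ j - n else val χ h + val χ j := by
    split_ifs with h1
    · rw [Nat.mod_eq_sub_mod h1, Nat.mod_eq_of_lt (by omega)]
    · exact Nat.mod_eq_of_lt (by omega)
  rw [e1, e2, apply_ite (A.ρ g), ha, map_zero]
  split_ifs <;> first | (exfalso; omega) | abel

/-- The `ker χ`-norm. -/
def sumKer [Fintype χ.ker] (x : A.V) : A.V := ∑ g : χ.ker, A.ρ (g : G) x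

theorem rho_sumKer_of_mem_ker [Fintype χ.ker] (d : G) (hd : d ∈ χ.ker) (x : A.V) :
    A.ρ d (sumKer A χ x) = sumKer A χ x := by
  unfold sumKer
  rw [map_sum]
  refine Fintype.sum_equiv (Equiv.mulLeft (⟨d, hd⟩ : χ.ker)) _ _ (fun g => ?_)
  show A.ρ d (A.ρ (g : G) x) = A.ρ ((⟨d, hd⟩ * g : χ.ker) : G) x
  rw [Subgroup.coe_mul, rho_mul]

theorem rho_c_sumKer [Fintype χ.ker] (hcen : ∀ g, c₀ * g = g * c₀) (x : A.V) :
    A.ρ c₀ (sumKer A χ x) = sumKer A χ (A.ρ c₀ x) := by
  unfold sumKer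
  rw [map_sum]
  refine Finset.sum_congr rfl (fun g _ => ?_)
  rw [← rho_mul, hcen, rho_mul]

theorem rho_pow_of_fixed (x : A.V) (hx : A.ρ c₀ x = x) (j : ℕ) : A.ρ (c₀ ^ j) x = x := by
  induction j with
  | zero => simp
  | succ j ih => rw [pow_succ, rho_mul, hx, ih]

theorem exists_ker_mul_pow [NeZero n] (hχc : χ c₀ = Multiplicative.ofAdd 1) (g : G) :
    ∃ d ∈ χ.ker, g = d * c₀ ^ val χ g := by
  refine ⟨g * (c₀ ^ val χ g)⁻¹, ?_, by group⟩
  rw [MonoidHom.mem_ker, map_mul, map_inv, mul_inv_eq_one]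
  apply Multiplicative.toAdd.injective
  rw [chi_pow χ c₀ hχc]
  exact (ZMod.natCast_zmod_val _).symm

theorem rho_sumKer_of_fixed [NeZero n] [Fintype χ.ker] (hχc : χ c₀ = Multiplicative.ofAdd 1)
    (hcen : ∀ g, c₀ * g = g * c₀) (x : A.V) (hx : A.ρ c₀ x = x) (g : G) :
    A.ρ g (sumKer A χ x) = sumKer A χ x := by
  obtain ⟨d, hd, hg⟩ := exists_ker_mul_pow χ c₀ hχc g
  have h1 : A.ρ c₀ (sumKer A χ x) = sumKer A χ x := by rw [rho_c_sumKer A χ c₀ hcen, hx]
  rw [hg, rho_mul, rho_pow_of_fixed A c₀ _ h1, rho_sumKer_of_mem_ker A χ d hd]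

end Abstract

end Fermat.Agent.CFT.Global.Rec.Carry
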