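/-
CFT program, layer Global, reciprocity package [F0]: the cyclic cocycle glue ([Rec-Cyc]).

`G` a group, `χ : G → ℤ/n` a character, `c₀ ∈ G` with `χ c₀ = 1`, `c₀ ^ n = 1`, `a ∈ A^G`, and
`Carry.kap A χ a` the carry cocycle (`(g, h) ↦ a` if `χ g + χ h ≥ n` on representatives in
`[0, n)`, `0` otherwise).

* `rest_zpowers_eq_zero` (CA) : if `a = ∑_{i < n} c₀ ^ i • y` then `res_{⟨c₀⟩} [κ] = 0`;
* `exists_norm_of_smul_rest` (CB) : for `c₀` central, `c₀ ∈ U ≤ G` with
  `H¹(U ∩ ker χ, A) = 0` (cocycle form): `k • res_U [κ] = 0` implies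
  `k • a = ∑_{i < n} c₀ ^ i • y` for some `(U ∩ ker χ)`-invariant `y`.
-/
import Mathlib
import Fermat.Agent.CFT.Coh.Defs
import Fermat.Agent.CFT.Coh.H2Dict
import Fermat.Agent.CFT.Global.Rec.Carry

set_option autoImplicit false
set_option linter.unusedSectionVars false

open CategoryTheory groupCohomology Fermat.Agent.CFT

namespace Fermat.Agent.CFT.Global.Rec.CycGlue

variable {G : Type} [Group G] [Fintype G] (A : Rep.{0} ℤ G) {n : ℕ} [NeZero n]
  (χ : G →* Multiplicative (ZMod n)) (c₀ : G)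

/-! ### Partial norms along `c₀` -/

/-- The partial norm `∑_{i < m} c₀ ^ i • y`. -/
def pnorm (y : A.V) (m : ℕ) : A.V := ∑ i ∈ Finset.range m, A.ρ (c₀ ^ i) y

theorem pnorm_add (y : A.V) (i j : ℕ) :
    pnorm A c₀ y (i + j) = pnorm A c₀ y i + A.ρ (c₀ ^ i) (pnorm A c₀ y j) := by
  unfold pnorm
  rw [Finset.sum_range_add, map_sum]
  congr 1
  refine Finset.sum_congr rfl fun t _ => ?_
  rw [pow_add, Carry.rho_mul]

theorem pnorm_succ' (y : A.V) (j : ℕ) :
    pnorm A c₀ y (j + 1) = A.ρ c₀ (pnorm A c₀ y j) + y := by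
  have h := pnorm_add A c₀ y 1 j
  have h1 : pnorm A c₀ y 1 = y := by
    unfold pnorm
    rw [Finset.sum_range_one, pow_zero, map_one]
    rfl
  rw [add_comm j 1, h, h1, pow_one, add_comm]

private theorem mod_cases {n x : ℕ} (hx : x < 2 * n) :
    (x < n ∧ x % n = x) ∨ (n ≤ x ∧ x % n = x - n) := by
  rcases Nat.lt_or_ge x n with h | h
  · exact Or.inl ⟨h, Nat.mod_eq_of_lt h⟩
  · refine Or.inr ⟨h, ?_⟩
    rw [Nat.mod_eq_sub_mod h, Nat.mod_eq_of_lt (by omega)]

/-- Every element of `⟨c₀⟩` is `c₀ ^ val`. -/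
theorem eq_pow_val (hχc : χ c₀ = Multiplicative.ofAdd 1) (hcn : c₀ ^ n = 1)
    {g : G} (hg : g ∈ Subgroup.zpowers c₀) : g = c₀ ^ Carry.val χ g := by
  have hn : 0 < n := Nat.pos_of_ne_zero (NeZero.ne n)
  obtain ⟨z, rfl⟩ := Subgroup.mem_zpowers_iff.1 hg
  have hz : c₀ ^ z = c₀ ^ (z % (n : ℤ)) :=
    zpow_eq_zpow_emod z (by rw [zpow_natCast]; exact hcn)
  have hnz : (n : ℤ) ≠ 0 := by exact_mod_cast hn.ne'
  obtain ⟨i, hi⟩ := Int.eq_ofNat_of_zero_le (Int.emod_nonneg z hnz)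
  have hin : i < n := by
    have := Int.emod_lt_of_pos z (show (0 : ℤ) < n by exact_mod_cast hn)
    omega
  rw [hz, hi, zpow_natCast, Carry.val_pow χ c₀ hχc, Nat.mod_eq_of_lt hin]

theorem kap_of_left (a : A.V) {g : G} (hg : χ g = 1) (h : G) :
    Carry.kap A χ a (g, h) = 0 := by
  rw [Carry.kap_apply, Carry.val_eq_zero χ hg, zero_add,
    if_neg (by have := Carry.val_lt χ h; omega)]

theorem kap_of_right (a : A.V) (g : G) {h : G} (hh : χ h = 1) :
    Carry.kap A χ a (g, h) = 0 := by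
  rw [Carry.kap_apply, Carry.val_eq_zero χ hh, add_zero,
    if_neg (by have := Carry.val_lt χ g; omega)]

/-- (CA) If `a` is the `c₀`-norm of `y`, the carry class restricts to `0` on `⟨c₀⟩`. -/
theorem rest_zpowers_eq_zero (hχc : χ c₀ = Multiplicative.ofAdd 1) (hcn : c₀ ^ n = 1)
    (a : A.V) (ha : ∀ g, A.ρ g a = a) (y : A.V)
    (hy : ∑ i ∈ Finset.range n, A.ρ (c₀ ^ i) y = a) :
    (Coh.rest A (Subgroup.zpowers c₀) 2).hom
      (H2π A ⟨Carry.kap A χ a, Carry.kap_mem_cocycles₂ A χ a ha⟩) = 0 := by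
  show (Coh.rest A (Subgroup.zpowers c₀) 2).hom
      ((H2π A).hom ⟨Carry.kap A χ a, Carry.kap_mem_cocycles₂ A χ a ha⟩) = 0
  rw [H2π_comp_map_apply, H2Dict.H2π_eq_zero_iff_exists]
  refine ⟨fun g => pnorm A c₀ y (Carry.val χ (g : G)), fun g h => ?_⟩
  show Carry.kap A χ a ((g : G), (h : G)) =
    A.ρ (g : G) (pnorm A c₀ y (Carry.val χ (h : G)))
      - pnorm A c₀ y (Carry.val χ ((g : G) * (h : G))) + pnorm A c₀ y (Carry.val χ (g : G))
  have hg := Carry.val_lt χ (g : G)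
  have hh := Carry.val_lt χ (h : G)
  have hgp : A.ρ (g : G) = A.ρ (c₀ ^ Carry.val χ (g : G)) :=
    congrArg A.ρ (eq_pow_val χ c₀ hχc hcn g.2)
  have hyn : pnorm A c₀ y n = a := hy
  rw [Carry.kap_apply, Carry.val_mul χ, hgp]
  have key := pnorm_add A c₀ y (Carry.val χ (g : G)) (Carry.val χ (h : G))
  rcases mod_cases (show Carry.val χ (g : G) + Carry.val χ (h : G) < 2 * n by omega) with
    ⟨h1, h1'⟩ | ⟨h1, h1'⟩
  · rw [h1', if_neg (by omega), key]
    abel
  · rw [h1', if_pos h1]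
    have e : Carry.val χ (g : G) + Carry.val χ (h : G)
        = (Carry.val χ (g : G) + Carry.val χ (h : G) - n) + n := by omega
    have key2 := pnorm_add A c₀ y (Carry.val χ (g : G) + Carry.val χ (h : G) - n) n
    rw [← e, hyn, ha] at key2
    rw [key2] at key
    rw [← sub_eq_iff_eq_add'.2 key.symm]
    abel

/-- (CB) For `c₀` central and `c₀ ∈ U` with `H¹(U ∩ ker χ, A) = 0` (cocycle form): if
`k • res_U [κ] = 0` then `k • a` is the `c₀`-norm of a `(U ∩ ker χ)`-invariant element. -/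
theorem exists_norm_of_smul_rest (hχc : χ c₀ = Multiplicative.ofAdd 1) (hcn : c₀ ^ n = 1)
    (hn : 1 < n) (hcen : ∀ g, c₀ * g = g * c₀) (a : A.V) (ha : ∀ g, A.ρ g a = a)
    (U : Subgroup G) (hU : c₀ ∈ U)
    (hH1 : ∀ β : G → A.V,
      (∀ g h, g ∈ U → χ g = 1 → h ∈ U → χ h = 1 → β (g * h) = A.ρ g (β h) + β g) →
      ∃ z : A.V, ∀ g ∈ U, χ g = 1 → β g = A.ρ g z - z)
    (k : ℤ)
    (hk : k • (Coh.rest A U 2).hom
      (H2π A ⟨Carry.kap A χ a, Carry.kap_mem_cocycles₂ A χ a ha⟩) = 0) :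
    ∃ y : A.V, (∀ h ∈ U, χ h = 1 → A.ρ h y = y) ∧
      k • a = ∑ i ∈ Finset.range n, A.ρ (c₀ ^ i) y := by
  -- cocycle form of the hypothesis
  have hk' : k • (Coh.rest A U 2).hom
      ((H2π A).hom ⟨Carry.kap A χ a, Carry.kap_mem_cocycles₂ A χ a ha⟩) = 0 := hk
  rw [← map_zsmul, ← map_zsmul, H2π_comp_map_apply, H2Dict.H2π_eq_zero_iff_exists] at hk'
  obtain ⟨b, hb⟩ := hk'
  have hb' : ∀ g h : U, k • Carry.kap A χ a ((g : G), (h : G)) =
      A.ρ (g : G) (b h) - b (g * h) + b g := hb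
  classical
  -- `b` is a cocycle on `U ∩ ker χ`: split it off
  obtain ⟨z, hz⟩ := hH1 (fun g => if hg : g ∈ U then b ⟨g, hg⟩ else 0) (by
    intro g h hg hχg hh _
    have e := hb' ⟨g, hg⟩ ⟨h, hh⟩
    rw [kap_of_left A χ a hχg, smul_zero] at e
    have hgh : g * h ∈ U := U.mul_mem hg hh
    rw [dif_pos hgh, dif_pos hh, dif_pos hg]
    have e' : b (⟨g, hg⟩ * ⟨h, hh⟩) = A.ρ g (b ⟨h, hh⟩) + b ⟨g, hg⟩ := by
      rw [eq_comm, ← sub_eq_zero]
      rw [e]
      abel
    exact e')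
  -- the normalised cochain
  have hb0 : ∀ g : U, χ (g : G) = 1 → b g = A.ρ (g : G) z - z := by
    intro g hg
    have := hz g g.2 hg
    rwa [dif_pos g.2] at this
  let b' : U → A.V := fun g => b g - (A.ρ (g : G) z - z)
  have hb'' : ∀ g h : U, k • Carry.kap A χ a ((g : G), (h : G)) =
      A.ρ (g : G) (b' h) - b' (g * h) + b' g := by
    intro g h
    rw [hb' g h]
    simp only [b', map_sub, Subgroup.coe_mul, Carry.rho_mul]
    abel
  have hb0' : ∀ g : U, χ (g : G) = 1 → b' g = 0 := by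
    intro g hg
    simp only [b']
    rw [hb0 g hg, sub_self]
  have hleft : ∀ h u : U, χ (h : G) = 1 → b' (h * u) = A.ρ (h : G) (b' u) := by
    intro h u hh
    have e := hb'' h u
    rw [kap_of_left A χ a hh, smul_zero, hb0' h hh, add_zero] at e
    exact (sub_eq_zero.1 e.symm).symm
  have hright : ∀ u h : U, χ (h : G) = 1 → b' (u * h) = b' u := by
    intro u h hh
    have e := hb'' u h
    rw [kap_of_right A χ a _ hh, smul_zero, hb0' h hh, map_zero, zero_sub] at e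
    have e2 : b' u - b' (u * h) = 0 := by rw [e]; abel
    exact (sub_eq_zero.1 e2).symm
  let c : U := ⟨c₀, hU⟩
  have hc1 : Carry.val χ c₀ = 1 := Carry.val_c χ c₀ hχc hn
  refine ⟨b' c, ?_, ?_⟩
  · intro h hh hχ
    have e1 := hleft ⟨h, hh⟩ c hχ
    have e2 := hright c ⟨h, hh⟩ hχ
    have e3 : (⟨h, hh⟩ : U) * c = c * ⟨h, hh⟩ := Subtype.ext (hcen h).symm
    rw [e3, e2] at e1
    exact e1.symm
  · -- telescoping along the powers of `c₀`
    have hone : b' 1 = 0 := hb0' 1 (by rw [Subgroup.coe_one, map_one])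
    have hstep : ∀ j : ℕ, j < n → k • (if n ≤ 1 + j then a else 0) =
        A.ρ c₀ (b' (c ^ j)) - b' (c ^ (j + 1)) + b' c := by
      intro j hj
      have e := hb'' c (c ^ j)
      rw [Carry.kap_apply] at e
      have e1 : Carry.val χ ((c ^ j : U) : G) = j := by
        rw [Subgroup.coe_pow]
        show Carry.val χ (c₀ ^ j) = j
        rw [Carry.val_pow χ c₀ hχc, Nat.mod_eq_of_lt hj]
      have e2 : Carry.val χ ((c : U) : G) = 1 := hc1
      rw [e1, e2] at e
      rw [e, pow_succ']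
    have hind : ∀ j : ℕ, j < n → b' (c ^ j) = pnorm A c₀ (b' c) j := by
      intro j
      induction j with
      | zero =>
        intro _
        rw [pow_zero, hone]
        unfold pnorm
        rw [Finset.sum_range_zero]
      | succ j ih =>
        intro hj
        have e := hstep j (by omega)
        rw [if_neg (by omega), smul_zero, ih (by omega)] at e
        rw [pnorm_succ']
        have e2 : A.ρ c₀ (pnorm A c₀ (b' c) j) + b' c - b' (c ^ (j + 1)) = 0 := by
          rw [e]; abel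
        exact (sub_eq_zero.1 e2).symm
    have e := hstep (n - 1) (by omega)
    have hcn' : c ^ (n - 1 + 1) = 1 := by
      apply Subtype.ext
      rw [Subgroup.coe_pow, Subgroup.coe_one]
      show c₀ ^ (n - 1 + 1) = 1
      rw [Nat.sub_add_cancel (by omega), hcn]
    rw [if_pos (by omega), hcn', hone, sub_zero, hind (n - 1) (by omega), ← pnorm_succ',
      Nat.sub_add_cancel (by omega)] at e
    exact e

end Fermat.Agent.CFT.Global.Rec.CycGlue
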