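import Mathlib
import Fermat.Agent.CFT.Coh.Defs
import Fermat.Agent.CFT.Coh.Cyclic
import Fermat.Agent.CFT.Global.Defs
import Fermat.Agent.CFT.Global.Plan
import Fermat.Agent.CFT.Global.ClassDescentS
import Fermat.Agent.CFT.Global.TowerFactor
import Fermat.Agent.CFT.Global.Rec.Plan
import Fermat.Agent.CFT.Global.Rec.Carry
import Fermat.Agent.CFT.Global.Rec.CycGlue

/-!
# [F0] reciprocity package: the cohomological assembly

`cycloCrossing_of : Rec.Plan.CrossData → Global.Plan.PGroupAxiom → Global.Plan.CycloCrossing`.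

Given the crossing data `(G', L', π, χ, c₀, ψ, b)` for `n = p ^ μ`, `μ = v_p(|G|) ≥ 1`, put
`a := ∑_{g ∈ ker χ} g • b` (a `G'`-invariant class) and let `X ∈ H²(G', C_{L'})` be the class of
the carry cocycle `kap χ a` (`= δχ ∪ a`).

* `res_{⟨c₀⟩} X = 0`: by `Coh.Cyclic.card_H2` and the `p`-group axiom for `(⟨c₀⟩, L')`,
  `[C_{L'}^{c₀} : N_{c₀} C_{L'}]` divides `n`; the map `ν x = ψ (∑_{g ∈ ker χ} g • x)` is additive
  on `c₀`-invariants, kills the `c₀`-norms and `ν b` has exact order `n`, so `ker ν` is the group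
  of `c₀`-norms (`mem_of_relIndex_dvd`); `ν a = |G| • ψ a = 0`; conclude with `CycGlue` (CA).
* order: for a `p`-subgroup `U ⊇ ⟨c₀⟩` with `k • res_U X = 0`, `CycGlue` (CB) (with
  `H¹(U ∩ ker χ, C_{L'}) = 0`) gives `k • a = N_{c₀} y` with `y` fixed by `U ∩ ker χ`; the transfer
  to `ker χ` (`exists_transfer`) and the kill property of `ψ` give `n ∣ [ker χ : U ∩ ker χ] k`,
  whence `|U| ∣ k n` (`pow_dvd_of_index`).
* if `p ∤ |G|`: the trivial tower and `X = 0`.
-/

set_option autoImplicit false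
set_option linter.unusedSectionVars false

open CategoryTheory groupCohomology
open scoped Fermat.Agent.CFT.Global


namespace Fermat.Agent.CFT.Global.Rec.Assembly

open Fermat.Agent.CFT Fermat.Agent.CFT.Global

/-! ## Abelian-group lemmas -/

section AbGroup

variable {M : Type} [AddCommGroup M] {n : ℕ}

/-- A function to `ℤ/n` which is additive on a subgroup `I` commutes with `ℤ`-multiples there. -/
theorem map_zsmul_of_additive (I : AddSubgroup M) (ν : M → ZMod n)
    (hadd : ∀ x ∈ I, ∀ y ∈ I, ν (x + y) = ν x + ν y) (x : M) (hx : x ∈ I) (m : ℤ) :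
    ν (m • x) = m • ν x := by
  let ν' : I →+ ZMod n := AddMonoidHom.mk' (fun x => ν x) (fun x y => hadd x x.2 y y.2)
  exact map_zsmul ν' m ⟨x, hx⟩

/-- If `[I : R ∩ I]` divides `n` and `ν : I → ℤ/n` is additive, kills `R ∩ I` and takes a value
of exact order `n`, then `R ∩ I = ker ν`. -/
theorem mem_of_relIndex_dvd (hn : n ≠ 0) (I R : AddSubgroup M)
    (hidx : R.relIndex I ∣ n) (ν : M → ZMod n)
    (hadd : ∀ x ∈ I, ∀ y ∈ I, ν (x + y) = ν x + ν y) (hR : ∀ x ∈ R, x ∈ I → ν x = 0)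
    (b : M) (hb : b ∈ I) (hord : ∀ k : ℤ, k • ν b = 0 → (n : ℤ) ∣ k)
    (a : M) (ha : a ∈ I) (hνa : ν a = 0) : a ∈ R := by
  have : NeZero n := ⟨hn⟩
  let ν' : I →+ ZMod n := AddMonoidHom.mk' (fun x => ν x) (fun x y => hadd x x.2 y y.2)
  have hsurj : Function.Surjective ν' := by
    have h1 : addOrderOf (ν b) = n := by
      apply Nat.dvd_antisymm
      · apply addOrderOf_dvd_of_nsmul_eq_zero
        rw [nsmul_eq_mul, ZMod.natCast_self, zero_mul]
      · have := hord (addOrderOf (ν b)) (by rw [natCast_zsmul]; exact addOrderOf_nsmul_eq_zero _)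
        exact Int.natCast_dvd_natCast.mp this
    have h2 : AddSubgroup.zmultiples (ν b) = ⊤ := by
      apply AddSubgroup.eq_top_of_card_eq
      rw [Nat.card_zmultiples, h1, Nat.card_zmod]
    intro t
    have ht : t ∈ AddSubgroup.zmultiples (ν b) := h2 ▸ AddSubgroup.mem_top t
    obtain ⟨k, hk⟩ := AddSubgroup.mem_zmultiples_iff.mp ht
    exact ⟨k • ⟨b, hb⟩, by rw [map_zsmul]; exact hk⟩
  have hle : R.addSubgroupOf I ≤ ν'.ker := by
    intro x hx
    exact hR x.1 (AddSubgroup.mem_addSubgroupOf.mp hx) x.2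
  have hker : ν'.ker.index = n := by
    rw [AddSubgroup.index_ker, AddMonoidHom.range_eq_top.mpr hsurj, AddSubgroup.card_top,
      Nat.card_zmod]
  have h3 : n ∣ (R.addSubgroupOf I).index := hker ▸ AddSubgroup.index_dvd_of_le hle
  have h4 : (R.addSubgroupOf I).index = n := Nat.dvd_antisymm hidx h3
  have h5 := AddSubgroup.relIndex_mul_index hle
  rw [hker, h4] at h5
  have h6 : (R.addSubgroupOf I).relIndex ν'.ker = 1 := by
    have : (R.addSubgroupOf I).relIndex ν'.ker * n = 1 * n := by rw [h5, one_mul]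
    exact Nat.eq_of_mul_eq_mul_right (Nat.pos_of_ne_zero hn) this
  have h7 := AddSubgroup.relIndex_eq_one.mp h6
  have h8 : (⟨a, ha⟩ : I) ∈ ν'.ker := hνa
  exact AddSubgroup.mem_addSubgroupOf.mp (h7 h8)

/-- Variant of `map_zsmul_of_additive` with a natural and an integer multiple. -/
theorem map_nsmul_zsmul_of_additive (I : AddSubgroup M) (ν : M → ZMod n)
    (hadd : ∀ x ∈ I, ∀ y ∈ I, ν (x + y) = ν x + ν y) (x : M) (hx : x ∈ I) (i : ℕ) (m : ℤ) :
    ν (i • (m • x)) = ((i : ℤ) * m) • ν x := by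
  let ν' : I →+ ZMod n := AddMonoidHom.mk' (fun x => ν x) (fun x y => hadd x x.2 y y.2)
  have h := map_nsmul ν' i (m • ⟨x, hx⟩)
  rw [map_zsmul] at h
  rw [mul_smul, natCast_zsmul]
  exact h

theorem map_nsmul_of_additive (I : AddSubgroup M) (ν : M → ZMod n)
    (hadd : ∀ x ∈ I, ∀ y ∈ I, ν (x + y) = ν x + ν y) (x : M) (hx : x ∈ I) (i : ℕ) :
    ν (i • x) = i • ν x := by
  let ν' : I →+ ZMod n := AddMonoidHom.mk' (fun x => ν x) (fun x y => hadd x x.2 y y.2)
  exact map_nsmul ν' i ⟨x, hx⟩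

end AbGroup

/-- The `p`-adic bookkeeping. -/
theorem pow_dvd_of_index {p μ j idx cardG : ℕ} (hp : p.Prime) (k : ℤ) (h1 : idx * p ^ j = cardG)
    (hμ : p ^ μ ∣ cardG) (hnd : ¬ p ^ (μ + 1) ∣ cardG)
    (h2 : ((p ^ μ : ℕ) : ℤ) ∣ (idx : ℤ) * k) : ((p ^ j : ℕ) : ℤ) ∣ k := by
  obtain ⟨m, hm⟩ := hμ
  have hpm : ¬ p ∣ m := by
    rintro ⟨m', hm'⟩
    exact hnd ⟨m', by rw [hm, hm', pow_succ]; ring⟩
  have h3 : ((p ^ μ : ℕ) : ℤ) * ((p ^ j : ℕ) : ℤ) ∣ ((p ^ μ : ℕ) : ℤ) * ((m : ℤ) * k) := by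
    have h4 : ((p ^ μ : ℕ) : ℤ) * ((m : ℤ) * k) = ((idx : ℤ) * k) * ((p ^ j : ℕ) : ℤ) := by
      have h5 : (cardG : ℤ) = ((p ^ μ : ℕ) : ℤ) * (m : ℤ) := by rw [hm]; push_cast; ring
      have h6 : (cardG : ℤ) = (idx : ℤ) * ((p ^ j : ℕ) : ℤ) := by rw [← h1]; push_cast; ring
      calc ((p ^ μ : ℕ) : ℤ) * ((m : ℤ) * k) = (cardG : ℤ) * k := by rw [h5]; ring
        _ = ((idx : ℤ) * k) * ((p ^ j : ℕ) : ℤ) := by rw [h6]; ring
    rw [h4]
    exact mul_dvd_mul h2 (dvd_refl _)
  have hpos : ((p ^ μ : ℕ) : ℤ) ≠ 0 := by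
    exact_mod_cast pow_ne_zero μ hp.ne_zero
  have h4 : ((p ^ j : ℕ) : ℤ) ∣ (m : ℤ) * k := (mul_dvd_mul_iff_left hpos).mp h3
  have hcop : IsCoprime ((p ^ j : ℕ) : ℤ) (m : ℤ) :=
    Nat.isCoprime_iff_coprime.mpr (Nat.Coprime.pow_left j ((Nat.Prime.coprime_iff_not_dvd hp).mpr hpm))
  exact hcop.dvd_of_dvd_mul_left h4

/-! ## The transfer from `U ∩ ker χ` to `ker χ` -/

section Transfer

variable {G : Type} [Group G] [Fintype G] (A : Rep.{0} ℤ G) {n : ℕ}
  (χ : G →* Multiplicative (ZMod n)) (c₀ : G)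

theorem exists_transfer (hcen : ∀ g, c₀ * g = g * c₀) (H : Subgroup G)
    (y a : A.V) (k : ℤ) (hy : ∀ h ∈ H, χ h = 1 → A.ρ h y = y) (ha : ∀ g, A.ρ g a = a)
    (hnorm : k • a = ∑ i ∈ Finset.range n, A.ρ (c₀ ^ i) y) :
    ∃ y' : A.V, (∀ g : G, χ g = 1 → A.ρ g y' = y') ∧
      ∑ i ∈ Finset.range n, A.ρ (c₀ ^ i) y' = (H.subgroupOf χ.ker).index • (k • a) := by
  classical
  let : Fintype (χ.ker ⧸ H.subgroupOf χ.ker) := Fintype.ofFinite _
  let F : χ.ker ⧸ H.subgroupOf χ.ker → A.V := fun q => A.ρ ((Quotient.out q : χ.ker) : G) y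
  refine ⟨∑ q, F q, ?_, ?_⟩
  · intro g hg
    let d : χ.ker := ⟨g, MonoidHom.mem_ker.mpr hg⟩
    rw [map_sum, ← Equiv.sum_comp (MulAction.toPerm d : Equiv.Perm (χ.ker ⧸ H.subgroupOf χ.ker)) F]
    refine Finset.sum_congr rfl (fun q _ => ?_)
    show A.ρ g (A.ρ ((Quotient.out q : χ.ker) : G) y) =
      A.ρ ((Quotient.out (d • q) : χ.ker) : G) y
    have h1 : d • q = ((d * Quotient.out q : χ.ker) : χ.ker ⧸ H.subgroupOf χ.ker) := by
      conv_lhs => rw [← QuotientGroup.out_eq' q]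
      rfl
    obtain ⟨h, hh⟩ := QuotientGroup.mk_out_eq_mul (H.subgroupOf χ.ker) (d * Quotient.out q)
    have hh1 : A.ρ ((h : χ.ker) : G) y = y :=
      hy _ (Subgroup.mem_subgroupOf.mp h.2) (MonoidHom.mem_ker.mp (h : χ.ker).2)
    rw [h1, hh, Subgroup.coe_mul, Subgroup.coe_mul, Carry.rho_mul, Carry.rho_mul, hh1]
  · have hcomm : ∀ (i : ℕ) (g : G) (x : A.V), A.ρ (c₀ ^ i) (A.ρ g x) = A.ρ g (A.ρ (c₀ ^ i) x) := by
      intro i g x
      have hc : c₀ ^ i * g = g * c₀ ^ i := (Commute.pow_left (show Commute c₀ g from hcen g) i)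
      rw [← Carry.rho_mul, hc, Carry.rho_mul]
    have h1 : ∀ q, ∑ i ∈ Finset.range n, A.ρ (c₀ ^ i) (F q) = k • a := by
      intro q
      show ∑ i ∈ Finset.range n, A.ρ (c₀ ^ i) (A.ρ ((Quotient.out q : χ.ker) : G) y) = k • a
      simp_rw [hcomm]
      rw [← map_sum, ← hnorm, map_zsmul, ha]
    simp_rw [map_sum]
    rw [Finset.sum_comm]
    simp_rw [h1]
    rw [Finset.sum_const, Finset.card_univ, Subgroup.index_eq_card, Nat.card_eq_fintype_card]

theorem sumKer_add [Fintype χ.ker] (x y : A.V) :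
    Carry.sumKer A χ (x + y) = Carry.sumKer A χ x + Carry.sumKer A χ y := by
  unfold Carry.sumKer
  simp_rw [map_add]
  exact Finset.sum_add_distrib

theorem sumKer_sum_pow [Fintype χ.ker] (hcen : ∀ g, c₀ * g = g * c₀) (y : A.V) (m : ℕ) :
    Carry.sumKer A χ (∑ i ∈ Finset.range m, A.ρ (c₀ ^ i) y) =
      ∑ i ∈ Finset.range m, A.ρ (c₀ ^ i) (Carry.sumKer A χ y) := by
  unfold Carry.sumKer
  simp_rw [map_sum]
  rw [Finset.sum_comm]
  refine Finset.sum_congr rfl (fun i _ => Finset.sum_congr rfl (fun g _ => ?_))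
  have hc : c₀ ^ i * (g : G) = (g : G) * c₀ ^ i :=
    (Commute.pow_left (show Commute c₀ (g : G) from hcen g) i)
  rw [← Carry.rho_mul, ← hc, Carry.rho_mul]

theorem sumKer_of_fixed [Fintype χ.ker] (a : A.V) (ha : ∀ g, A.ρ g a = a) :
    Carry.sumKer A χ a = Nat.card χ.ker • a := by
  unfold Carry.sumKer
  simp_rw [ha]
  rw [Finset.sum_const, Finset.card_univ, Nat.card_eq_fintype_card]

theorem card_subgroupOf_comm (H K : Subgroup G) :
    Nat.card (H.subgroupOf K) = Nat.card (K.subgroupOf H) := by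
  rw [← Subgroup.inf_subgroupOf_right H K, ← Subgroup.inf_subgroupOf_right K H,
    Nat.card_congr (Subgroup.subgroupOfEquivOfLe (inf_le_right : H ⊓ K ≤ K)).toEquiv,
    Nat.card_congr (Subgroup.subgroupOfEquivOfLe (inf_le_right : K ⊓ H ≤ H)).toEquiv, inf_comm]

end Transfer

/-! ## The main case -/

section Main

variable (p : ℕ) [Fact p.Prime]

theorem crossing_main (hP : Global.Plan.PGroupAxiom) (hp2 : p ≠ 2)
    (G L : Type) [Group G] [Fintype G] [Field L] [NumberField L] [MulSemiringAction G L]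
    [FaithfulSMul G L] (μ : ℕ) (hμ : 1 ≤ μ) (hdvd : p ^ μ ∣ Nat.card G)
    (hndvd : ¬ p ^ (μ + 1) ∣ Nat.card G)
    (L' : Type) [Field L'] [NumberField L'] (G' : Type) [Group G'] [Fintype G']
    [MulSemiringAction G' L'] [FaithfulSMul G' L'] (f : L →+* L') (π : G' →* G)
    (χ : G' →* Multiplicative (ZMod (p ^ μ))) [Fintype χ.ker] (c₀ : G')
    (ψ : ClassGroupOf L' → ZMod (p ^ μ)) (b : ClassGroupOf L')
    (htower : IsTower f π)
    (hker : ∀ g : G', π g = 1 ↔ g ∈ Subgroup.zpowers c₀)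
    (hcen : ∀ g : G', c₀ * g = g * c₀) (hcn : c₀ ^ (p ^ μ) = 1)
    (hχc : χ c₀ = Multiplicative.ofAdd 1)
    (hadd : ∀ x y : ClassGroupOf L', (∀ g : G', (classRep G' L').ρ g x = x) →
        (∀ g : G', (classRep G' L').ρ g y = y) → ψ (x + y) = ψ x + ψ y)
    (hkill : ∀ y : ClassGroupOf L', (∀ g : G', χ g = 1 → (classRep G' L').ρ g y = y) →
        ψ (∑ i ∈ Finset.range (p ^ μ), (classRep G' L').ρ (c₀ ^ i) y) = 0)
    (hb : (classRep G' L').ρ c₀ b = b)
    (hord : ∀ k : ℤ, k • ψ (∑ g : χ.ker, (classRep G' L').ρ (g : G') b) = 0 →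
        ((p ^ μ : ℕ) : ℤ) ∣ k) :
    IsPGroup p π.ker ∧
      ∃ X : groupCohomology (classRep G' L') 2,
        (Coh.rest (classRep G' L') π.ker 2).hom X = 0 ∧
        ∀ U : Subgroup G', IsPGroup p U → π.ker ≤ U →
          ∀ k : ℤ, k • (Coh.rest (classRep G' L') U 2).hom X = 0 →
            (Nat.card U : ℤ) ∣ k * Nat.card π.ker := by
  have hp : p.Prime := Fact.out
  have hn0 : p ^ μ ≠ 0 := pow_ne_zero μ hp.ne_zero
  have : NeZero (p ^ μ) := ⟨hn0⟩
  have hn1 : 1 < p ^ μ := Nat.one_lt_pow (by omega) hp.one_lt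
  -- the kernel of `π`
  have hkerEq : π.ker = Subgroup.zpowers c₀ := by
    ext g
    rw [MonoidHom.mem_ker]
    exact hker g
  have hord_c : orderOf c₀ = p ^ μ := by
    apply Nat.dvd_antisymm (orderOf_dvd_of_pow_eq_one hcn)
    have h := Carry.chi_pow χ c₀ hχc (orderOf c₀)
    rw [pow_orderOf_eq_one, map_one, toAdd_one] at h
    exact (ZMod.natCast_eq_zero_iff _ _).mp h.symm
  have hcardker : Nat.card π.ker = p ^ μ := by rw [hkerEq, Nat.card_zpowers, hord_c]
  have hPker : IsPGroup p π.ker := IsPGroup.of_card hcardker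
  -- `|ker χ| = |G|`
  have hχsurj : Function.Surjective χ := by
    intro t
    refine ⟨c₀ ^ (Multiplicative.toAdd t).val, ?_⟩
    apply Multiplicative.toAdd.injective
    rw [Carry.chi_pow χ c₀ hχc]
    exact ZMod.natCast_zmod_val _
  have hcardΔ : Nat.card χ.ker = Nat.card G := by
    have h1 := TowerFactor.card_eq htower
    have h2 : Nat.card G' = Nat.card χ.ker * p ^ μ := by
      rw [← Subgroup.card_mul_index χ.ker, Subgroup.index_ker,
        MonoidHom.range_eq_top.mpr hχsurj, Subgroup.card_top, Nat.card_congr Multiplicative.toAdd,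
        Nat.card_zmod]
    rw [hcardker, h2, mul_comm] at h1
    exact Nat.eq_of_mul_eq_mul_left (Nat.pos_of_ne_zero hn0) h1
  -- the class `a` and its invariance
  have ha : ∀ g, (classRep G' L').ρ g (Carry.sumKer (classRep G' L') χ b) =
      Carry.sumKer (classRep G' L') χ b :=
    Carry.rho_sumKer_of_fixed (classRep G' L') χ c₀ hχc hcen b hb
  -- the invariants, as an additive subgroup
  let Inv : AddSubgroup (classRep G' L').V :=
    { carrier := {x | ∀ g, (classRep G' L').ρ g x = x}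
      add_mem' := fun {x y} hx hy g => by rw [map_add, hx g, hy g]
      zero_mem' := fun g => map_zero _
      neg_mem' := fun {x} hx g => by rw [map_neg, hx g] }
  have haddInv : ∀ x ∈ Inv, ∀ y ∈ Inv, ψ (x + y) = ψ x + ψ y := fun x hx y hy => hadd x y hx hy
  -- Step 1: `a` is a `c₀`-norm
  have hnormA : ∃ y : (classRep G' L').V,
      ∑ i ∈ Finset.range (p ^ μ), (classRep G' L').ρ (c₀ ^ i) y =
        Carry.sumKer (classRep G' L') χ b := by
    classical
    have hPC : IsPGroup p (Subgroup.zpowers c₀) := hkerEq ▸ hPker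
    have hcardC : Nat.card (Subgroup.zpowers c₀) = p ^ μ := by rw [Nat.card_zpowers, hord_c]
    have hH2 := (hP p hp2 (Subgroup.zpowers c₀) L' hPC).2
    let σ : Subgroup.zpowers c₀ := ⟨c₀, Subgroup.mem_zpowers c₀⟩
    have hσ : ∀ x : Subgroup.zpowers c₀, x ∈ Subgroup.zpowers σ := by
      rintro ⟨x, hx⟩
      obtain ⟨k, rfl⟩ := Subgroup.mem_zpowers_iff.mp hx
      exact Subgroup.mem_zpowers_iff.mpr ⟨k, Subtype.ext (by simp [σ])⟩
    have hordσ : orderOf σ = p ^ μ := by
      rw [← hord_c]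
      exact Subgroup.orderOf_mk c₀ _
    have hcard := Cyclic.card_H2 (Rep.res (Subgroup.zpowers c₀).subtype (classRep G' L')) hσ
    have hidx : (Cyclic.nHom (Rep.res (Subgroup.zpowers c₀).subtype (classRep G' L'))).range.relIndex
        (Cyclic.dHom (Rep.res (Subgroup.zpowers c₀).subtype (classRep G' L')) σ).ker ∣ p ^ μ := by
      have h : Herbrand.idx (Cyclic.dHom (Rep.res (Subgroup.zpowers c₀).subtype (classRep G' L')) σ)
          (Cyclic.nHom (Rep.res (Subgroup.zpowers c₀).subtype (classRep G' L'))) ∣ p ^ μ := by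
        rw [← hcard, ← hcardC]
        exact hH2
      exact h
    have hI : ∀ x : (classRep G' L').V,
        x ∈ (Cyclic.dHom (Rep.res (Subgroup.zpowers c₀).subtype (classRep G' L')) σ).ker ↔
          (classRep G' L').ρ c₀ x = x := by
      intro x
      rw [AddMonoidHom.mem_ker, Cyclic.dHom_apply, sub_eq_zero]
      exact Iff.rfl
    have hN : ∀ y : (classRep G' L').V,
        (Rep.res (Subgroup.zpowers c₀).subtype (classRep G' L')).ρ.norm y =
          ∑ i ∈ Finset.range (p ^ μ), (classRep G' L').ρ (c₀ ^ i) y := by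
      intro y
      rw [← Cyclic.pnorm_orderOf (Rep.res (Subgroup.zpowers c₀).subtype (classRep G' L')) hσ,
        Cyclic.pnorm_apply, hordσ]
      rfl
    have key := mem_of_relIndex_dvd (M := (classRep G' L').V) hn0 _ _ hidx
      (fun x => ψ (Carry.sumKer (classRep G' L') χ x)) ?_ ?_ b ((hI b).mpr hb) hord
      (Carry.sumKer (classRep G' L') χ b) ((hI _).mpr (ha c₀)) ?_
    · obtain ⟨y, hy⟩ := key
      exact ⟨y, by rw [← hN]; exact hy⟩
    · intro x hx y hy
      have hx' := Carry.rho_sumKer_of_fixed (classRep G' L') χ c₀ hχc hcen x ((hI x).mp hx)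
      have hy' := Carry.rho_sumKer_of_fixed (classRep G' L') χ c₀ hχc hcen y ((hI y).mp hy)
      show ψ _ = ψ _ + ψ _
      rw [sumKer_add]
      exact hadd _ _ hx' hy'
    · rintro x ⟨y, rfl⟩ -
      show ψ (Carry.sumKer (classRep G' L') χ
        ((Rep.res (Subgroup.zpowers c₀).subtype (classRep G' L')).ρ.norm y)) = 0
      rw [hN, sumKer_sum_pow (classRep G' L') χ c₀ hcen]
      exact hkill _ (fun g hg =>
        Carry.rho_sumKer_of_mem_ker (classRep G' L') χ g (MonoidHom.mem_ker.mpr hg) y)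
    · show ψ (Carry.sumKer (classRep G' L') χ (Carry.sumKer (classRep G' L') χ b)) = 0
      rw [sumKer_of_fixed (classRep G' L') χ _ ha,
        map_nsmul_of_additive Inv ψ haddInv _ ha, hcardΔ, nsmul_eq_mul,
        (ZMod.natCast_eq_zero_iff _ _).mpr hdvd, zero_mul]
  obtain ⟨y₀, hy₀⟩ := hnormA
  refine ⟨hPker, H2π (classRep G' L') ⟨Carry.kap (classRep G' L') χ _,
    Carry.kap_mem_cocycles₂ (classRep G' L') χ _ ha⟩, ?_, ?_⟩
  · have key : ∀ S : Subgroup G', S = Subgroup.zpowers c₀ →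
        (Coh.rest (classRep G' L') S 2).hom (H2π (classRep G' L')
          ⟨Carry.kap (classRep G' L') χ _,
            Carry.kap_mem_cocycles₂ (classRep G' L') χ _ ha⟩) = 0 := by
      rintro S rfl
      exact CycGlue.rest_zpowers_eq_zero (classRep G' L') χ c₀ hχc hcn _ ha y₀ hy₀
    exact key _ hkerEq
  · intro U hU hUker k hk
    classical
    have hcU : c₀ ∈ U :=
      hUker (MonoidHom.mem_ker.mpr ((hker c₀).mpr (Subgroup.mem_zpowers c₀)))
    have hH1 : ∀ β : G' → (classRep G' L').V,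
        (∀ g h, g ∈ U → χ g = 1 → h ∈ U → χ h = 1 →
          β (g * h) = (classRep G' L').ρ g (β h) + β g) →
        ∃ z : (classRep G' L').V, ∀ g ∈ U, χ g = 1 → β g = (classRep G' L').ρ g z - z := by
      intro β hβ
      have hV : IsPGroup p (U ⊓ χ.ker : Subgroup G') := hU.to_le inf_le_left
      have hz := (hP p hp2 (U ⊓ χ.ker : Subgroup G') L' hV).1
      obtain ⟨z, hz'⟩ := ClassDescentS.exists_of_isZero_H1
        (classRep (U ⊓ χ.ker : Subgroup G') L') hz (fun v => β (v : G'))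
        (fun g h => hβ g h g.2.1 (MonoidHom.mem_ker.mp g.2.2) h.2.1 (MonoidHom.mem_ker.mp h.2.2))
      exact ⟨z, fun g hgU hgχ => (hz' ⟨g, ⟨hgU, MonoidHom.mem_ker.mpr hgχ⟩⟩).symm⟩
    obtain ⟨y, hyinv, hynorm⟩ := CycGlue.exists_norm_of_smul_rest (classRep G' L') χ c₀ hχc hcn
      hn1 hcen _ ha U hcU hH1 k hk
    obtain ⟨y', hy'inv, hy'norm⟩ :=
      exists_transfer (classRep G' L') χ c₀ hcen U y _ k hyinv ha hynorm
    have h0 : ψ ((U.subgroupOf χ.ker).index • (k • Carry.sumKer (classRep G' L') χ b)) = 0 := by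
      rw [← hy'norm]
      exact hkill y' hy'inv
    have h1 : (((U.subgroupOf χ.ker).index : ℤ) * k) •
        ψ (Carry.sumKer (classRep G' L') χ b) = 0 := by
      rw [← map_nsmul_zsmul_of_additive Inv ψ haddInv _ ha]
      exact h0
    have h2 := hord _ h1
    obtain ⟨j, hj⟩ := (hU.comap_subtype (K := χ.ker)).exists_card_eq
    have h3 : (U.subgroupOf χ.ker).index * p ^ j = Nat.card G := by
      rw [← hj, ← hcardΔ, mul_comm]
      exact Subgroup.card_mul_index _
    have h4 := pow_dvd_of_index hp k h3 hdvd hndvd h2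
    have h5 : Nat.card U = p ^ j * p ^ μ := by
      have hs : Function.Surjective (χ.comp U.subtype) := by
        intro t
        refine ⟨⟨c₀, hcU⟩ ^ (Multiplicative.toAdd t).val, ?_⟩
        show χ ((⟨c₀, hcU⟩ ^ (Multiplicative.toAdd t).val : U) : G') = t
        rw [SubgroupClass.coe_pow]
        apply Multiplicative.toAdd.injective
        rw [Carry.chi_pow χ c₀ hχc]
        exact ZMod.natCast_zmod_val _
      have h6 : Nat.card U = Nat.card (χ.comp U.subtype).ker * p ^ μ := by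
        rw [← Subgroup.card_mul_index (χ.comp U.subtype).ker, Subgroup.index_ker,
          MonoidHom.range_eq_top.mpr hs, Subgroup.card_top,
          Nat.card_congr Multiplicative.toAdd, Nat.card_zmod]
      have h7 : Nat.card (χ.comp U.subtype).ker = Nat.card (U.subgroupOf χ.ker) :=
        card_subgroupOf_comm χ.ker U
      have hj' : Nat.card (U.subgroupOf χ.ker) = p ^ j := hj
      rw [h6, h7, hj']
    rw [h5, hcardker]
    push_cast
    exact mul_dvd_mul h4 (dvd_refl _)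

end Main

/-! ## The assembly -/

/-- [Rec-ASM] `CrossData` and the `p`-group axiom give the cyclotomic crossing. -/
theorem cycloCrossing_of (hD : Plan.CrossData) (hP : Global.Plan.PGroupAxiom) :
    Global.Plan.CycloCrossing := by
  intro p _ hp2 G L _ _ _ _ _ _
  have hp : p.Prime := Fact.out
  have hG0 : Nat.card G ≠ 0 := Nat.card_pos.ne'
  by_cases hpG : p ∣ Nat.card G
  · -- `μ = v_p(|G|) ≥ 1`
    have hμ : 1 ≤ (Nat.card G).factorization p :=
      (hp.dvd_iff_one_le_factorization hG0).mp hpG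
    have hdvd : p ^ (Nat.card G).factorization p ∣ Nat.card G := Nat.ordProj_dvd _ _
    have hndvd : ¬ p ^ ((Nat.card G).factorization p + 1) ∣ Nat.card G :=
      Nat.pow_succ_factorization_not_dvd hG0 hp
    obtain ⟨L', _, _, G', _, _, _, f, π, χ, c₀, ψ, b, hfaith, htower, hker, hcen, hcn, hχc, hadd,
      hkill, hb, hord⟩ := hD p hp2 G L _ hμ
    exact ⟨L', inferInstance, inferInstance, G', inferInstance, inferInstance, inferInstance, f, π,
      hfaith, htower,
      crossing_main p hP hp2 G L _ hμ hdvd hndvd L' G' f π χ c₀ ψ b htower hker hcen hcn hχc hadd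
        hkill hb hord⟩
  · -- `p ∤ |G|`: the trivial tower and the zero class
    refine ⟨L, inferInstance, inferInstance, G, inferInstance, inferInstance, inferInstance,
      RingHom.id L, MonoidHom.id G, inferInstance, TowerFactor.refl G L, ?_, 0, map_zero _, ?_⟩
    · rw [MonoidHom.ker_id]
      exact IsPGroup.of_bot
    · intro U hU _ k _
      obtain ⟨j, hj⟩ := hU.exists_card_eq
      have hj0 : j = 0 := by
        by_contra hne
        apply hpG
        have h1 : p ∣ Nat.card U := by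
          rw [hj]
          exact dvd_pow_self p hne
        exact h1.trans (Subgroup.card_subgroup_dvd_card U)
      rw [hj, hj0, pow_zero]
      exact one_dvd _

end Fermat.Agent.CFT.Global.Rec.Assembly
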