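import Mathlib
import Fermat.Agent.CFT.Global.CycloChar

/-!
# [Rec-CC.surj] Surjectivity of the idelic cyclotomic character at an unramified prime

* `exists_cofactor` : in a Dedekind domain, a maximal ideal `P` containing a nonzero radical ideal
  `I` has a comaximal cofactor: `I = P * J`, `P + J = 1`.
* `exists_norm_eq` (Mathlib only): `R` a Dedekind domain, finite free over `ℤ`, of
  characteristic zero, `ℓ` a prime with `R ⧸ (ℓ)` reduced.  Then the norm `R → ℤ → ℤ/ℓ` is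
  surjective.
* `exists_chi_eq` : for a number field `F` unramified at `ℓ`, the character
  `CycloChar.chi F ℓ 1 : J_F → (ℤ/ℓ)ˣ` is surjective (already on the ideles concentrated at `ℓ`).
-/

set_option autoImplicit false

open scoped TensorProduct

noncomputable section

namespace Fermat.Agent.CFT.Global.Rec.CharSurj

section Core

variable {R : Type*} [CommRing R] [IsDedekindDomain R]

/-- In a Dedekind domain, a maximal ideal containing a nonzero radical ideal `I` has a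
comaximal cofactor. -/
theorem exists_cofactor {I P : Ideal R} (hI : I.IsRadical) (hI0 : I ≠ ⊥) (hP : P.IsMaximal)
    (hIP : I ≤ P) : ∃ J : Ideal R, I = P * J ∧ IsCoprime P J := by
  obtain ⟨J, hJ⟩ := Ideal.dvd_iff_le.mpr hIP
  refine ⟨J, hJ, ?_⟩
  rw [Ideal.isCoprime_iff_sup_eq]
  by_contra hne
  have hJP : J ≤ P := by
    have h := hP.eq_of_le hne le_sup_left
    calc J ≤ P ⊔ J := le_sup_right
      _ = P := h.symm
  have hJI : J ≤ I := fun y hy =>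
    (Ideal.isRadical_iff_pow_one_lt 2 one_lt_two).mp hI y (by
      rw [hJ, pow_two]
      exact Ideal.mul_mem_mul (hJP hy) hy)
  have hJ0 : J ≠ 0 := by
    intro h
    apply hI0
    rw [hJ, h, mul_zero, Ideal.zero_eq_bot]
  have hJeq : P * J = J := le_antisymm Ideal.mul_le_right (hJ ▸ hJI)
  have hP1 : P = 1 := (mul_eq_right₀ hJ0).mp hJeq
  exact hP.ne_top (by rw [hP1, Ideal.one_eq_top])

variable [Module.Free ℤ R] [Module.Finite ℤ R]

/-- A prime number is not a unit in a nontrivial ring which is finite free over `ℤ`. -/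
theorem not_isUnit_natCast (ℓ : ℕ) (hℓ : ℓ.Prime) : ¬ IsUnit (ℓ : R) := by
  classical
  intro h
  let b := Module.Free.chooseBasis ℤ R
  have h1 : IsUnit (Algebra.norm ℤ (ℓ : R)) := h.map (Algebra.norm ℤ)
  have h2 : Algebra.norm ℤ (ℓ : R) =
      (ℓ : ℤ) ^ Fintype.card (Module.Free.ChooseBasisIndex ℤ R) := by
    have h3 := Algebra.norm_algebraMap_of_basis b (ℓ : ℤ)
    rw [← h3]
    congr 1
    simp
  rw [h2, Int.isUnit_iff_natAbs_eq, Int.natAbs_pow, Int.natAbs_natCast, Nat.pow_eq_one] at h1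
  rcases h1 with h1 | h1
  · exact hℓ.one_lt.ne' h1
  · have hemp : IsEmpty (Module.Free.ChooseBasisIndex ℤ R) := Fintype.card_eq_zero_iff.mp h1
    have hsub : Subsingleton R := b.repr.injective.subsingleton
    exact not_subsingleton R hsub

/-- **Surjectivity of the norm modulo an unramified prime.** -/
theorem exists_norm_eq [CharZero R] (ℓ : ℕ) [Fact ℓ.Prime]
    (hred : IsReduced (R ⧸ Ideal.span {(ℓ : R)})) (t : ZMod ℓ) :
    ∃ u : R, ((Algebra.norm ℤ u : ℤ) : ZMod ℓ) = t := by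
  classical
  have hℓ : ℓ.Prime := Fact.out
  have hI0 : Ideal.span {(ℓ : R)} ≠ ⊥ := by
    rw [Ne, Ideal.span_singleton_eq_bot]
    exact_mod_cast hℓ.ne_zero
  have hIrad : (Ideal.span {(ℓ : R)}).IsRadical :=
    (Ideal.isRadical_iff_quotient_reduced _).mpr hred
  have hItop : Ideal.span {(ℓ : R)} ≠ ⊤ := by
    rw [Ne, Ideal.span_singleton_eq_top]
    exact not_isUnit_natCast ℓ hℓ
  obtain ⟨P, hP, hIP⟩ := Ideal.exists_le_maximal _ hItop
  obtain ⟨J, hJ, hcop⟩ := exists_cofactor hIrad hI0 hP hIP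
  obtain ⟨a, ha, c, hc, hac⟩ := Ideal.isCoprime_iff_exists.mp hcop
  -- elements of `P * J` are multiples of `ℓ`
  have hPJ : ∀ r ∈ P, ∀ s ∈ J, ∃ v : R, r * s = ℓ * v := by
    intro r hr s hs
    have h1 : r * s ∈ Ideal.span {(ℓ : R)} := by
      rw [hJ]
      exact Ideal.mul_mem_mul hr hs
    obtain ⟨v, hv⟩ := Ideal.mem_span_singleton'.mp h1
    exact ⟨v, by rw [← hv, mul_comm]⟩
  -- the residue field
  have : P.IsMaximal := hP
  let _ : Field (R ⧸ P) := Ideal.Quotient.field P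
  have hℓP : (ℓ : R) ∈ P := hIP (Ideal.mem_span_singleton_self _)
  have : CharP (R ⧸ P) ℓ := (CharP.charP_iff_prime_eq_zero hℓ).mpr (by
    rw [← map_natCast (Ideal.Quotient.mk P), Ideal.Quotient.eq_zero_iff_mem]
    exact hℓP)
  let _ : Algebra (ZMod ℓ) (R ⧸ P) := ZMod.algebra _ ℓ
  have hP0 : P ≠ ⊥ := fun h => hI0 (le_bot_iff.mp (h ▸ hIP))
  have : Finite (R ⧸ P) := Ideal.finiteQuotientOfFreeOfNeBot P hP0
  obtain ⟨y, hy⟩ := FiniteField.norm_surjective (ZMod ℓ) (R ⧸ P) t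
  obtain ⟨x, rfl⟩ := Ideal.Quotient.mk_surjective y
  have hmka : Ideal.Quotient.mk P a = 0 := Ideal.Quotient.eq_zero_iff_mem.mpr ha
  have hmkc : Ideal.Quotient.mk P c = 1 := by
    have h1 : Ideal.Quotient.mk P (a + c) = 1 := by rw [hac, map_one]
    rwa [map_add, hmka, zero_add] at h1
  refine ⟨1 + (x - 1) * c, ?_⟩
  -- the base change to `ZMod ℓ`
  let T : R → Module.End (ZMod ℓ) (ZMod ℓ ⊗[ℤ] R) := fun r =>
    (Algebra.lmul ℤ R r).baseChange (ZMod ℓ)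
  let τ : R → ZMod ℓ ⊗[ℤ] R := fun r => (1 : ZMod ℓ) ⊗ₜ[ℤ] r
  have hTτ : ∀ r s : R, T r (τ s) = τ (r * s) := fun r s => by
    simp only [T, τ, LinearMap.baseChange_tmul]
    rfl
  have hτadd : ∀ r s : R, τ (r + s) = τ r + τ s := fun r s => TensorProduct.tmul_add _ _ _
  have hτsub : ∀ r s : R, τ (r - s) = τ r - τ s := fun r s => TensorProduct.tmul_sub _ _ _
  have hτℓ : ∀ v : R, τ (ℓ * v) = 0 := by
    intro v
    have h1 : (ℓ : R) * v = (ℓ : ℤ) • v := by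
      rw [zsmul_eq_mul]
      push_cast
      rfl
    simp only [τ]
    rw [h1, TensorProduct.tmul_smul, TensorProduct.smul_tmul', zsmul_eq_mul, mul_one]
    have h2 : (((ℓ : ℤ) : ZMod ℓ)) = 0 := by
      rw [Int.cast_natCast]
      exact ZMod.natCast_self ℓ
    rw [h2, TensorProduct.zero_tmul]
  have hτsurj : ∀ v : ZMod ℓ ⊗[ℤ] R, ∃ r : R, v = τ r := by
    intro v
    induction v using TensorProduct.induction_on with
    | zero => exact ⟨0, (TensorProduct.tmul_zero _ _).symm⟩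
    | tmul z s =>
      obtain ⟨k, rfl⟩ := ZMod.intCast_surjective z
      refine ⟨k • s, ?_⟩
      simp only [τ]
      rw [TensorProduct.tmul_smul, TensorProduct.smul_tmul', zsmul_eq_mul, mul_one]
    | add v w hv hw =>
      obtain ⟨r, rfl⟩ := hv
      obtain ⟨s, rfl⟩ := hw
      exact ⟨r + s, (hτadd r s).symm⟩
  -- the projection to the residue field
  let ψ : ZMod ℓ ⊗[ℤ] R →ₗ[ZMod ℓ] (R ⧸ P) :=
    LinearMap.liftBaseChange (ZMod ℓ) ((Ideal.Quotient.mk P).toIntAlgHom.toLinearMap)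
  have hψτ : ∀ r : R, ψ (τ r) = Ideal.Quotient.mk P r := fun r => by
    simp only [ψ, τ, LinearMap.liftBaseChange_tmul, one_smul]
    rfl
  -- the equivalence
  let Ψ₀ : ZMod ℓ ⊗[ℤ] R →ₗ[ZMod ℓ] (R ⧸ P) × LinearMap.range (T a) :=
    LinearMap.prod ψ (T a).rangeRestrict
  have hΨ₀ : ∀ r : R, Ψ₀ (τ r) = (Ideal.Quotient.mk P r, ⟨τ (a * r), ⟨τ r, hTτ a r⟩⟩) := by
    intro r
    apply Prod.ext
    · exact hψτ r
    · apply Subtype.ext
      exact hTτ a r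
  have hinj : Function.Injective Ψ₀ := by
    rw [injective_iff_map_eq_zero]
    intro v hv
    obtain ⟨r, rfl⟩ := hτsurj v
    rw [hΨ₀ r] at hv
    have h1 : Ideal.Quotient.mk P r = 0 := congrArg Prod.fst hv
    have h2 : τ (a * r) = 0 := congrArg (fun z => (z.2 : ZMod ℓ ⊗[ℤ] R)) hv
    have hrP : r ∈ P := Ideal.Quotient.eq_zero_iff_mem.mp h1
    obtain ⟨v, hv'⟩ := hPJ r hrP c hc
    have h3 : r = a * r + ℓ * v := by
      rw [← hv']
      linear_combination (-r) * hac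
    rw [h3, hτadd, hτℓ, add_zero]
    exact h2
  have hsurj : Function.Surjective Ψ₀ := by
    rintro ⟨y₀, ⟨w, w', hw'⟩⟩
    obtain ⟨x₀, rfl⟩ := Ideal.Quotient.mk_surjective y₀
    obtain ⟨r', rfl⟩ := hτsurj w'
    refine ⟨τ (c * x₀ + a * r'), ?_⟩
    rw [hΨ₀]
    apply Prod.ext
    · show Ideal.Quotient.mk P (c * x₀ + a * r') = Ideal.Quotient.mk P x₀
      rw [map_add, map_mul, map_mul, hmka, hmkc, one_mul, zero_mul, add_zero]
    · apply Subtype.ext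
      show τ (a * (c * x₀ + a * r')) = w
      rw [← hw', hTτ]
      obtain ⟨v, hv⟩ := hPJ a ha c hc
      have h5 : a * (c * x₀ + a * r') = a * r' + ℓ * (v * x₀ - v * r') := by
        linear_combination (x₀ - r') * hv + (a * r') * hac
      rw [h5, hτadd, hτℓ, add_zero]
  let Ψ : (ZMod ℓ ⊗[ℤ] R) ≃ₗ[ZMod ℓ] (R ⧸ P) × LinearMap.range (T a) :=
    LinearEquiv.ofBijective Ψ₀ ⟨hinj, hsurj⟩
  have hΨ : ∀ v, Ψ v = Ψ₀ v := fun v => rfl
  -- conjugation
  let g : Module.End (ZMod ℓ) ((R ⧸ P) × LinearMap.range (T a)) :=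
    LinearMap.prodMap (Algebra.lmul (ZMod ℓ) (R ⧸ P) (Ideal.Quotient.mk P x)) LinearMap.id
  have hconj : T (1 + (x - 1) * c) =
      (Ψ.symm : _ →ₗ[ZMod ℓ] _) ∘ₗ g ∘ₗ (Ψ : _ →ₗ[ZMod ℓ] _) := by
    apply LinearMap.ext
    intro v
    apply Ψ.injective
    simp only [LinearMap.comp_apply, LinearEquiv.coe_coe, LinearEquiv.apply_symm_apply]
    obtain ⟨r, rfl⟩ := hτsurj v
    rw [hTτ, hΨ, hΨ, hΨ₀, hΨ₀]
    apply Prod.ext
    · show Ideal.Quotient.mk P ((1 + (x - 1) * c) * r) =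
        Ideal.Quotient.mk P x * Ideal.Quotient.mk P r
      rw [map_mul, map_add, map_mul, map_sub, map_one, hmkc]
      ring
    · apply Subtype.ext
      show τ (a * ((1 + (x - 1) * c) * r)) = τ (a * r)
      obtain ⟨v, hv⟩ := hPJ a ha c hc
      have h6 : a * ((1 + (x - 1) * c) * r) = a * r + ℓ * (v * (x - 1) * r) := by
        linear_combination ((x - 1) * r) * hv
      rw [h6, hτadd, hτℓ, add_zero]
  have hdet1 : LinearMap.det (T (1 + (x - 1) * c)) =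
      ((Algebra.norm ℤ (1 + (x - 1) * c) : ℤ) : ZMod ℓ) := by
    simp only [T]
    rw [LinearMap.det_baseChange, ← Algebra.norm_apply]
    rfl
  have hdet2 : LinearMap.det (T (1 + (x - 1) * c)) = t := by
    rw [hconj]
    have h7 := LinearMap.det_conj g Ψ.symm
    rw [LinearEquiv.symm_symm] at h7
    rw [h7]
    simp only [g]
    rw [LinearMap.det_prodMap, LinearMap.det_id, mul_one, ← Algebra.norm_apply]
    exact hy
  rw [← hdet1, hdet2]

end Core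

/-! ### The character -/

section Chi

open Fermat.Agent.CFT.Global Fermat.Agent.CFT.Global.CycloChar NumberField

/-- **[Rec-CC.surj]** For a number field `F` unramified at `ℓ`, the idelic cyclotomic character
modulo `ℓ` is surjective onto `(ℤ/ℓ)ˣ`; a preimage can be taken concentrated at `ℓ`. -/
theorem exists_chi_eq_mulSingle (F : Type) [Field F] [NumberField F] (ℓ : ℕ) [Fact ℓ.Prime]
    (h : UnramAt F ℓ) (w : (ZMod (ℓ ^ 1))ˣ) :
    ∃ x : (SemiLocal F ((⟨ℓ, Fact.out⟩ : Nat.Primes) : ℕ))ˣ,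
      CycloChar.chi F ℓ 1 ⟨Pi.mulSingle (⟨ℓ, Fact.out⟩ : Nat.Primes) x,
        mulSingle_mem_finIdele F (⟨ℓ, Fact.out⟩ : Nat.Primes) x⟩ = w := by
  have hℓ : ℓ.Prime := Fact.out
  obtain ⟨k, hk⟩ := ZMod.intCast_surjective ((w⁻¹ : (ZMod (ℓ ^ 1))ˣ) : ZMod (ℓ ^ 1))
  obtain ⟨u, hu⟩ := exists_norm_eq (R := 𝓞 F) ℓ h (k : ZMod ℓ)
  set n : ℤ := Algebra.norm ℤ u with hn
  have hnk : ((n : ℤ) : ZMod (ℓ ^ 1)) = ((w⁻¹ : (ZMod (ℓ ^ 1))ˣ) : ZMod (ℓ ^ 1)) := by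
    rw [← hk]
    have h1 := (ZMod.intCast_eq_intCast_iff_dvd_sub n k ℓ).mp hu
    apply (ZMod.intCast_eq_intCast_iff_dvd_sub n k (ℓ ^ 1)).mpr
    rw [pow_one]
    exact h1
  have hℓn : ¬ ((ℓ : ℤ) ∣ n) := by
    intro hdvd
    have h0 : ((n : ℤ) : ZMod (ℓ ^ 1)) = 0 := by
      apply (ZMod.intCast_zmod_eq_zero_iff_dvd n (ℓ ^ 1)).mpr
      rw [pow_one]
      exact hdvd
    have h1 : ((w⁻¹ : (ZMod (ℓ ^ 1))ˣ) : ZMod (ℓ ^ 1)) * (w : ZMod (ℓ ^ 1)) = 1 := by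
      rw [← Units.val_mul, inv_mul_cancel, Units.val_one]
    rw [← hnk, h0, zero_mul] at h1
    have h2 : (ℓ ^ 1 : ℕ) ∣ 1 := by
      have h3 : ((1 : ℕ) : ZMod (ℓ ^ 1)) = 0 := by
        rw [Nat.cast_one]
        exact h1.symm
      exact (ZMod.natCast_eq_zero_iff 1 (ℓ ^ 1)).mp h3
    rw [pow_one] at h2
    exact hℓ.one_lt.ne' (Nat.dvd_one.mp h2)
  have hn0 : n ≠ 0 := by
    intro h0
    exact hℓn (h0 ▸ dvd_zero _)
  have hu0 : ((u : 𝓞 F) : F) ≠ 0 := by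
    intro h0
    apply hn0
    have : u = 0 := RingOfIntegers.coe_eq_zero_iff.mp h0
    rw [hn, this, Algebra.norm_zero]
  let c : Fˣ := Units.mk0 ((u : 𝓞 F) : F) hu0
  let qℓ : Nat.Primes := ⟨ℓ, Fact.out⟩
  refine ⟨principal F c qℓ, ?_⟩
  show CycloChar.chi F ℓ 1 ⟨Pi.mulSingle qℓ (principal F c qℓ),
    mulSingle_mem_finIdele F qℓ (principal F c qℓ)⟩ = w
  rw [chi_mulSingle, localChar_principal, ratChar_apply]
  set X : ℚ_[(qℓ : ℕ)]ˣ :=
    Units.map ((Rat.castHom ℚ_[(qℓ : ℕ)] : ℚ →+* ℚ_[(qℓ : ℕ)]) : ℚ →* ℚ_[(qℓ : ℕ)])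
      (normUnit F c) with hX
  have hXn : (X : ℚ_[(qℓ : ℕ)]) = (((n : ℤ) : ℤ_[(qℓ : ℕ)]) : ℚ_[(qℓ : ℕ)]) := by
    rw [hX, coe_ratUnit, coe_normUnit]
    have h1 : ((n : ℤ) : ℚ) = Algebra.norm ℚ ((u : 𝓞 F) : F) := by
      rw [hn]
      exact Algebra.coe_norm_int u
    show ((Algebra.norm ℚ ((u : 𝓞 F) : F) : ℚ) : ℚ_[(qℓ : ℕ)]) = _
    rw [← h1]
    push_cast
    rfl
  have hnorm : ‖(X : ℚ_[(qℓ : ℕ)])‖ = 1 := by
    rw [hXn]
    have h1 : ‖((n : ℤ) : ℤ_[(qℓ : ℕ)])‖ ≤ 1 := PadicInt.norm_le_one _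
    have h2 : ¬ ‖((n : ℤ) : ℤ_[(qℓ : ℕ)])‖ < 1 := by
      rw [PadicInt.norm_int_lt_one_iff_dvd]
      exact hℓn
    have h3 : ‖((n : ℤ) : ℤ_[(qℓ : ℕ)])‖ = 1 := le_antisymm h1 (not_lt.mp h2)
    exact h3
  have hinv := coe_inv_padicChar_self (qℓ : ℕ) 1 X ((n : ℤ) : ℤ_[(qℓ : ℕ)]) hXn hnorm
  rw [map_intCast] at hinv
  have hfin : (padicChar (qℓ : ℕ) (qℓ : ℕ) 1 X)⁻¹ = (w⁻¹ : (ZMod (ℓ ^ 1))ˣ) := by
    apply Units.ext
    rw [hinv]
    exact hnk
  exact inv_injective hfin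

/-- **[Rec-CC.surj]** For a number field `F` unramified at `ℓ`, the idelic cyclotomic character
modulo `ℓ` is surjective onto `(ℤ/ℓ)ˣ`. -/
theorem exists_chi_eq (F : Type) [Field F] [NumberField F] (ℓ : ℕ) [Fact ℓ.Prime]
    (h : UnramAt F ℓ) (w : (ZMod (ℓ ^ 1))ˣ) :
    ∃ a : ↥(finIdele F), CycloChar.chi F ℓ 1 a = w := by
  obtain ⟨x, hx⟩ := exists_chi_eq_mulSingle F ℓ h w
  exact ⟨_, hx⟩

/-- The statement `Rec.ClassChar.ChiSurj` (helper85), unfolded: binder order `ℓ`, `F`. -/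
theorem chiSurj : ∀ (ℓ : ℕ) [Fact ℓ.Prime] (F : Type) [Field F] [NumberField F], UnramAt F ℓ →
    ∀ w : (ZMod (ℓ ^ 1))ˣ, ∃ a : ↥(finIdele F), CycloChar.chi F ℓ 1 a = w :=
  fun ℓ _ F _ _ h w => exists_chi_eq F ℓ h w

end Chi

end Fermat.Agent.CFT.Global.Rec.CharSurj
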