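/-
CFT program (P3), layer Global, reciprocity package [F0], leaf **[Rec-CC]** (helper85):
the class character `Rec.Plan.ClassChar`.

For a prime `ℓ`, `N : ℕ` and `θ : (ℤ/ℓ)ˣ → ℤ/N` with `θ (-1) = 1`, the family
`Ψ F : C_F → ℤ/N`, `[a] ↦ θ (chi_F a)`, where `chi_F = CycloChar.chi F ℓ 1` is the idelic
cyclotomic character modulo `ℓ` (helper17), transported along `(ℤ/ℓ¹)ˣ ≃ (ℤ/ℓ)ˣ`.
It is well defined on classes because `chi` of a principal idele is `±1` (`chi_principal`).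

* (norm) from `CycloChar.chi_eq_of_prod_smul` (helper32, landed): `chiNorm : ChiNorm`;
* (gal)  from `CycloChar.exists_gal_chi` (helper71, landed): `chiGal : ChiGal`;
* (surj) from `Rec.CharSurj.exists_chi_eq` (helper22, landed): `chiSurj : ChiSurj`.

**`classChar : Rec.Plan.ClassChar`** (unconditional); hypothesis forms
`classChar_of : ChiNorm → ChiGal → ChiSurj → Rec.Plan.ClassChar`,
`classChar_of_gal_surj : ChiGal → ChiSurj → Rec.Plan.ClassChar`,
`classChar_of_surj : ChiSurj → Rec.Plan.ClassChar`.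
-/
import Mathlib
import Fermat.Agent.CFT.Global.Rec.Plan
import Fermat.Agent.CFT.Global.CycloChar
import Fermat.Agent.CFT.Global.CycloCharTower
import Fermat.Agent.CFT.Global.CycloCharRecip
import Fermat.Agent.CFT.Global.Rec.CharSurj
import Fermat.Agent.CFT.Global.ClassDescent
import Fermat.Agent.CFT.Global.GaloisPair

set_option autoImplicit false

open scoped TensorProduct
open scoped Fermat.Agent.CFT.Global

noncomputable section

namespace Fermat.Agent.CFT.Global.Rec.ClassChar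

open Fermat.Agent.CFT Fermat.Agent.CFT.Global

/-! ### The three arithmetic inputs -/

/-- **(3)** Norm compatibility of the idelic cyclotomic character modulo `ℓ`. -/
def ChiNorm : Prop :=
  ∀ (ℓ : ℕ) [Fact ℓ.Prime] (K F G : Type) [Field K] [NumberField K] [Field F] [NumberField F]
    [Group G] [Fintype G] [MulSemiringAction G F] [FaithfulSMul G F] (f : K →+* F),
    (∀ y : F, (∀ g : G, g • y = y) ↔ y ∈ f.range) →
    ∀ (x : ↥(finIdele K)) (b : ↥(finIdele F)),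
      ideleProdMap f (x : IdeleProd K) = ∏ g : G, g • (b : IdeleProd F) →
      CycloChar.chi K ℓ 1 x = CycloChar.chi F ℓ 1 b

/-- **(4)** The idelic cyclotomic character modulo `ℓ` lands in Galois. -/
def ChiGal : Prop :=
  ∀ (ℓ : ℕ) [Fact ℓ.Prime] (F M : Type) [Field F] [NumberField F] [Field M] [NumberField M]
    [Algebra F M] [IsGalois F M] (a : ↥(finIdele F)),
    ∃ σ : M ≃ₐ[F] M, ∃ k : ℕ, (∀ t : M, t ^ (ℓ ^ 1) = 1 → σ t = t ^ k) ∧
      ((k : ZMod (ℓ ^ 1)) = ((CycloChar.chi F ℓ 1 a : (ZMod (ℓ ^ 1))ˣ) : ZMod (ℓ ^ 1)) ∨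
        (k : ZMod (ℓ ^ 1)) = -((CycloChar.chi F ℓ 1 a : (ZMod (ℓ ^ 1))ˣ) : ZMod (ℓ ^ 1)))

/-- **(surj)** Surjectivity of the idelic cyclotomic character modulo an unramified prime. -/
def ChiSurj : Prop :=
  ∀ (ℓ : ℕ) [Fact ℓ.Prime] (F : Type) [Field F] [NumberField F], UnramAt F ℓ →
    ∀ w : (ZMod (ℓ ^ 1))ˣ, ∃ a : ↥(finIdele F), CycloChar.chi F ℓ 1 a = w

/-! ### The character with values in `(ℤ/ℓ)ˣ` -/

section Chi

variable (ℓ : ℕ) [Fact ℓ.Prime]

/-- `(ℤ/ℓ¹)ˣ ≃ (ℤ/ℓ)ˣ`. -/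
def unitsEquiv : (ZMod (ℓ ^ 1))ˣ ≃* (ZMod ℓ)ˣ :=
  Units.mapEquiv (ZMod.ringEquivCongr (pow_one ℓ)).toMulEquiv

theorem coe_unitsEquiv (u : (ZMod (ℓ ^ 1))ˣ) :
    ((unitsEquiv ℓ u : (ZMod ℓ)ˣ) : ZMod ℓ) = ZMod.ringEquivCongr (pow_one ℓ) (u : ZMod (ℓ ^ 1)) :=
  rfl

theorem unitsEquiv_neg_one : unitsEquiv ℓ (-1) = -1 := by
  apply Units.ext
  rw [coe_unitsEquiv, Units.val_neg, Units.val_one, map_neg, map_one, Units.val_neg,
    Units.val_one]

variable (F : Type) [Field F] [NumberField F]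

/-- The idelic cyclotomic character modulo `ℓ`, with values in `(ℤ/ℓ)ˣ`. -/
def chi1 : ↥(finIdele F) →* (ZMod ℓ)ˣ :=
  (unitsEquiv ℓ).toMonoidHom.comp (CycloChar.chi F ℓ 1)

theorem chi1_apply (a : ↥(finIdele F)) : chi1 ℓ F a = unitsEquiv ℓ (CycloChar.chi F ℓ 1 a) := rfl

theorem chi1_principal (u : Fˣ) :
    chi1 ℓ F ⟨principal F u, QBridge.principal_mem_finIdele u⟩ = 1 ∨
      chi1 ℓ F ⟨principal F u, QBridge.principal_mem_finIdele u⟩ = -1 := by
  rcases CycloChar.chi_principal F ℓ 1 u with h | h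
  · left
    rw [chi1_apply, h, map_one]
  · right
    rw [chi1_apply, h, unitsEquiv_neg_one]

end Chi

/-! ### The class character -/

section Psi

variable (ℓ : ℕ) [Fact ℓ.Prime] {N : ℕ} (θ : (ZMod ℓ)ˣ →* Multiplicative (ZMod N))
  (F : Type) [Field F] [NumberField F]

/-- `a ↦ θ (chi a)` on the (additive) finite ideles. -/
def psiJ : ↥(addSub (finIdele F)) →ₗ[ℤ] ZMod N :=
  AddMonoidHom.toIntLinearMap
    { toFun := fun x => (θ (chi1 ℓ F ⟨(x : Additive (IdeleProd F)).toMul, x.2⟩)).toAdd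
      map_zero' := by
        show (θ (chi1 ℓ F 1)).toAdd = 0
        rw [map_one, map_one]
        rfl
      map_add' := fun x y => by
        show (θ (chi1 ℓ F (⟨(x : Additive (IdeleProd F)).toMul, x.2⟩ *
          ⟨(y : Additive (IdeleProd F)).toMul, y.2⟩))).toAdd = _
        rw [map_mul, map_mul]
        rfl }

theorem psiJ_apply (x : ↥(addSub (finIdele F))) :
    psiJ ℓ θ F x = (θ (chi1 ℓ F ⟨(x : Additive (IdeleProd F)).toMul, x.2⟩)).toAdd := rfl

variable {θ}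

theorem theta_neg (hθ : θ (-1) = 1) (u : (ZMod ℓ)ˣ) : θ (-u) = θ u := by
  rw [← neg_one_mul, map_mul, hθ, one_mul]

theorem le_ker_psiJ (hθ : θ (-1) = 1) :
    (addSub (principal F).range).comap (addSub (finIdele F)).subtype ≤
      LinearMap.ker (psiJ ℓ θ F) := by
  rintro x ⟨u, hu⟩
  rw [LinearMap.mem_ker, psiJ_apply]
  have hx : (⟨(x : Additive (IdeleProd F)).toMul, x.2⟩ : ↥(finIdele F)) =
      ⟨principal F u, QBridge.principal_mem_finIdele u⟩ := Subtype.ext hu.symm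
  rw [hx]
  rcases chi1_principal ℓ F u with h | h
  · rw [h, map_one]
    rfl
  · rw [h, hθ]
    rfl

/-- **The class character** `Ψ F : C_F → ℤ/N`, `[a] ↦ θ (chi a)`. -/
def Psi (hθ : θ (-1) = 1) : ClassGroupOf F →+ ZMod N :=
  (Submodule.liftQ _ (psiJ ℓ θ F) (le_ker_psiJ ℓ F hθ)).toAddMonoidHom

theorem Psi_mkC (hθ : θ (-1) = 1) (x : IdeleProd F) (hx : x ∈ finIdele F) :
    Psi ℓ F hθ (ClassDescent.mkC x hx) = (θ (chi1 ℓ F ⟨x, hx⟩)).toAdd := rfl

end Psi

/-! ### (norm) -/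

section Norm

/-- The image of an idele of `K` in `F` is fixed by a group fixing `f(K)` pointwise. -/
theorem smul_ideleProdMap_of_fixed {K F G : Type} [Field K] [CharZero K] [Field F] [CharZero F]
    [Group G] [MulSemiringAction G F] (f : K →+* F) (hf : ∀ (g : G) (x : K), g • f x = f x)
    (g : G) (x : IdeleProd K) : g • ideleProdMap f x = ideleProdMap f x := by
  funext q
  apply Units.ext
  show g • semiLocalMap (q : ℕ) f (x q : SemiLocal K q) =
    semiLocalMap (q : ℕ) f (x q : SemiLocal K q)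
  generalize (x q : SemiLocal K q) = z
  induction z using TensorProduct.induction_on with
  | zero => simp
  | tmul a b => rw [semiLocalMap_tmul, smul_tmul_eq, hf]
  | add x y hx hy => rw [map_add, smul_add, hx, hy]

/-- The norm of a class is the class of the norm. -/
theorem sum_rho_mkC {F G : Type} [Field F] [CharZero F] [Group G] [Fintype G]
    [MulSemiringAction G F] (b : IdeleProd F) (hb : b ∈ finIdele F) :
    (∑ g : G, (classRep G F).ρ g (ClassDescent.mkC b hb) : ClassGroupOf F) =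
      ClassDescent.mkC (∏ g : G, g • b) (prod_mem (fun g _ => smul_mem_finIdele G F g hb)) := by
  have e1 : ∀ g : G, (classRep G F).ρ g (ClassDescent.mkC b hb) =
      Multiplicative.toAdd (GaloisPair.mkCH F (GaloisPair.smulFin G g ⟨b, hb⟩)) := fun g => rfl
  have e2 : (∑ g : G, Multiplicative.toAdd (GaloisPair.mkCH F (GaloisPair.smulFin G g ⟨b, hb⟩)) :
      ClassGroupOf F) =
      Multiplicative.toAdd (GaloisPair.mkCH F (∏ g : G, GaloisPair.smulFin G g ⟨b, hb⟩)) := by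
    rw [map_prod, toAdd_prod]
  refine (Finset.sum_congr rfl (fun g _ => e1 g)).trans (e2.trans ?_)
  rw [GaloisPair.mkCH_apply]
  show ClassDescent.mkC _ _ = ClassDescent.mkC _ _
  congr 1
  exact GaloisPair.coe_prod_smulFin G ⟨b, hb⟩

variable (ℓ : ℕ) [Fact ℓ.Prime] {N : ℕ} {θ : (ZMod ℓ)ˣ →* Multiplicative (ZMod N)}

/-- **(norm)** for the class character. -/
theorem psi_norm (h3 : ChiNorm) (hθ : θ (-1) = 1) (G F K : Type) [Group G] [Fintype G]
    [Field F] [NumberField F] [MulSemiringAction G F] [FaithfulSMul G F] [Field K]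
    [NumberField K] (f : K →+* F) (hf1 : ∀ (g : G) (x : K), g • f x = f x)
    (hf2 : ∀ y : F, (∀ g : G, g • y = y) → y ∈ f.range)
    (x : ClassGroupOf K) (b : ClassGroupOf F)
    (h : classMap f x = ∑ g : G, (classRep G F).ρ g b) :
    Psi ℓ K hθ x = Psi ℓ F hθ b := by
  obtain ⟨x, hx, rfl⟩ := ClassDescent.exists_mkC x
  obtain ⟨b, hb, rfl⟩ := ClassDescent.exists_mkC b
  obtain ⟨α, hα⟩ := (ClassDescent.mkC_eq_mkC_iff _ _).mp
    ((ClassDescent.classMap_mkC f x hx).symm.trans (h.trans (sum_rho_mkC b hb)))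
  have hαfix : ∀ g : G, g • (α : F) = α := by
    intro g
    have h1 : principal F (g • α) = principal F α := by
      rw [← smul_principal, hα, smul_div', smul_ideleProdMap_of_fixed f hf1, Finset.smul_prod']
      congr 1
      exact Fintype.prod_equiv (Equiv.mulLeft g) _ _ (fun h => (mul_smul g h b).symm)
    exact congrArg Units.val (ClassDescent.principal_injective h1)
  obtain ⟨α₀, hα₀⟩ := hf2 α hαfix
  have hα₀0 : α₀ ≠ 0 := by
    rintro rfl
    rw [map_zero] at hα₀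
    exact α.ne_zero hα₀.symm
  obtain ⟨u, hu⟩ : ∃ u : Kˣ, ideleProdMap f (principal K u) = principal F α := by
    refine ⟨Units.mk0 α₀ hα₀0, ?_⟩
    rw [ideleProdMap_principal]
    congr 1
    exact Units.ext hα₀
  have hx' : ideleProdMap f
      ((⟨x, hx⟩ / ⟨principal K u, QBridge.principal_mem_finIdele u⟩ : ↥(finIdele K)) :
        IdeleProd K) = ∏ g : G, g • b := by
    show ideleProdMap f (x / principal K u) = _
    rw [map_div, hu, hα, div_div_cancel]
  have hchi := h3 ℓ K F G f (fun y => ⟨hf2 y, fun ⟨c, hc⟩ g => by rw [← hc]; exact hf1 g c⟩)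
    (⟨x, hx⟩ / ⟨principal K u, QBridge.principal_mem_finIdele u⟩) ⟨b, hb⟩ hx'
  have h1 : chi1 ℓ K ⟨x, hx⟩ =
      chi1 ℓ F ⟨b, hb⟩ * chi1 ℓ K ⟨principal K u, QBridge.principal_mem_finIdele u⟩ := by
    have h2 : chi1 ℓ K (⟨x, hx⟩ / ⟨principal K u, QBridge.principal_mem_finIdele u⟩) =
        chi1 ℓ F ⟨b, hb⟩ := by rw [chi1_apply, chi1_apply, hchi]
    rw [← h2, ← map_mul, div_mul_cancel]
  rw [Psi_mkC, Psi_mkC]
  rcases chi1_principal ℓ K u with h2 | h2
  · rw [h1, h2, mul_one]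
  · rw [h1, h2, mul_neg, mul_one, theta_neg ℓ hθ]

end Norm

/-! ### (gal) -/

section Gal

variable (ℓ : ℕ) [Fact ℓ.Prime] {N : ℕ} {θ : (ZMod ℓ)ˣ →* Multiplicative (ZMod N)}

/-- **(gal)** for the class character. -/
theorem psi_gal (h4 : ChiGal) (hθ : θ (-1) = 1) (G M F : Type) [Group G] [Fintype G]
    [Field M] [NumberField M] [MulSemiringAction G M] [FaithfulSMul G M] [Field F]
    [NumberField F] (j : F →+* M) (S : Subgroup G) (ζ : M) (χ : G →* (ZMod ℓ)ˣ)
    (hS1 : ∀ g ∈ S, ∀ x : F, g • j x = j x)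
    (hS2 : ∀ y : M, (∀ g ∈ S, g • y = y) → y ∈ j.range)
    (hζ : IsPrimitiveRoot ζ ℓ)
    (hχ : ∀ g : G, g • ζ = ζ ^ ((χ g : (ZMod ℓ)ˣ) : ZMod ℓ).val)
    (a : ClassGroupOf F) : ∃ g ∈ S, Psi ℓ F hθ a = (θ (χ g)).toAdd := by
  obtain ⟨a, ha, rfl⟩ := ClassDescent.exists_mkC a
  let _ : Algebra F M := j.toAlgebra
  have : IsGaloisGroup ↥S F M :=
    { faithful := inferInstance
      commutes := ⟨fun s c m => by
        show s • (j c * m) = j c * s • m
        rw [smul_mul']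
        congr 1
        exact hS1 s s.2 c⟩
      isInvariant := ⟨fun y hy => by
        obtain ⟨c, hc⟩ := hS2 y (fun g hg => hy ⟨g, hg⟩)
        exact ⟨c, hc⟩⟩ }
  have : IsGalois F M := IsGaloisGroup.isGalois ↥S F M
  obtain ⟨σ, k, hk, hkchi⟩ := h4 ℓ F M ⟨a, ha⟩
  obtain ⟨g, hg⟩ : ∃ g : ↥S, ∀ t : M, (g : G) • t = σ t := by
    refine ⟨(IsGaloisGroup.mulEquivAlgEquiv ↥S F M).symm σ, fun t => ?_⟩
    have h := congrArg (fun τ : M ≃ₐ[F] M => τ t)
      ((IsGaloisGroup.mulEquivAlgEquiv ↥S F M).apply_symm_apply σ)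
    exact h
  refine ⟨g, g.2, ?_⟩
  have h1 : ζ ^ k = ζ ^ ((χ g : (ZMod ℓ)ˣ) : ZMod ℓ).val := by
    rw [← hχ, hg, hk ζ (by rw [pow_one]; exact hζ.pow_eq_one)]
  have h2 : (k : ZMod ℓ) = ((χ g : (ZMod ℓ)ˣ) : ZMod ℓ) := by
    have h3 := (hζ.isOfFinOrder (Fact.out : ℓ.Prime).ne_zero).pow_eq_pow_iff_modEq.mp h1
    rw [← hζ.eq_orderOf] at h3
    rw [(ZMod.natCast_eq_natCast_iff _ _ _).mpr h3, ZMod.natCast_zmod_val]
  have h3 : chi1 ℓ F ⟨a, ha⟩ = χ g ∨ chi1 ℓ F ⟨a, ha⟩ = -χ g := by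
    have hc : ((chi1 ℓ F ⟨a, ha⟩ : (ZMod ℓ)ˣ) : ZMod ℓ) =
        ZMod.ringEquivCongr (pow_one ℓ)
          ((CycloChar.chi F ℓ 1 ⟨a, ha⟩ : (ZMod (ℓ ^ 1))ˣ) : ZMod (ℓ ^ 1)) := rfl
    rcases hkchi with h | h
    · left
      apply Units.ext
      rw [hc, ← h, map_natCast, h2]
    · right
      apply Units.ext
      rw [hc, ← neg_eq_iff_eq_neg.mpr h, map_neg, map_natCast, h2]
      exact (Units.val_neg _).symm
  rw [Psi_mkC]
  rcases h3 with h | h
  · rw [h]
  · rw [h, theta_neg ℓ hθ]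

end Gal

/-! ### (surj) and the assembly -/

section Main

/-- **[Rec-CC]** in hypothesis form: the class character from the three properties of the
idelic cyclotomic character modulo `ℓ`. -/
theorem classChar_of (h3 : ChiNorm) (h4 : ChiGal) (h5 : ChiSurj) : Plan.ClassChar := by
  intro ℓ _ N θ hθ
  refine ⟨fun F _ _ => Psi ℓ F hθ, ?_, ?_, ?_⟩
  · intro G F K _ _ _ _ _ _ _ _ f hf1 hf2 x b h
    exact psi_norm ℓ h3 hθ G F K f hf1 hf2 x b h
  · intro G M F _ _ _ _ _ _ _ _ j S ζ χ hS1 hS2 hζ hχ a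
    exact psi_gal ℓ h4 hθ G M F j S ζ χ hS1 hS2 hζ hχ a
  · intro F _ _ hun w
    obtain ⟨a, ha⟩ := h5 ℓ F hun ((unitsEquiv ℓ).symm w)
    refine ⟨ClassDescent.mkC (a : IdeleProd F) a.2, ?_⟩
    rw [Psi_mkC]
    have h1 : chi1 ℓ F ⟨(a : IdeleProd F), a.2⟩ = w := by
      rw [chi1_apply]
      show unitsEquiv ℓ (CycloChar.chi F ℓ 1 a) = w
      rw [ha, MulEquiv.apply_symm_apply]
    rw [h1]

/-- **(3)** holds: `CycloChar.chi_eq_of_prod_smul` (helper32). -/
theorem chiNorm : ChiNorm := by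
  intro ℓ _ K F G _ _ _ _ _ _ _ _ f hfix x b h
  exact CycloChar.chi_eq_of_prod_smul ℓ 1 f hfix x b h

/-- **[Rec-CC]** from (4) and (surj). -/
theorem classChar_of_gal_surj (h4 : ChiGal) (h5 : ChiSurj) : Plan.ClassChar :=
  classChar_of chiNorm h4 h5

/-- **(4)** holds: `CycloChar.exists_gal_chi` (helper71). -/
theorem chiGal : ChiGal := by
  intro ℓ _ F M _ _ _ _ _ _ a
  exact CycloChar.exists_gal_chi F ℓ 1 M a

/-- **[Rec-CC]** from (surj). -/
theorem classChar_of_surj (h5 : ChiSurj) : Plan.ClassChar :=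
  classChar_of chiNorm chiGal h5

/-- **(surj)** holds: `Rec.CharSurj.exists_chi_eq` (helper22). -/
theorem chiSurj : ChiSurj := by
  intro ℓ _ F _ _ hun w
  exact CharSurj.exists_chi_eq F ℓ hun w

/-- **[Rec-CC]** `Rec.Plan.ClassChar`: the class character attached to the idelic cyclotomic
character modulo `ℓ`. -/
theorem classChar : Plan.ClassChar :=
  classChar_of chiNorm chiGal chiSurj

end Main

end Fermat.Agent.CFT.Global.Rec.ClassChar
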