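import Fermat.Agent.CFT.Global.Plan
import Fermat.Agent.CFT.Global.ChainHolds
import Fermat.Agent.CFT.Global.CrossTowerHolds
import Fermat.Agent.CFT.Global.Rec.Plan
import Fermat.Agent.CFT.Global.Rec.Arith
import Fermat.Agent.CFT.Global.Rec.ClassChar
import Fermat.Agent.CFT.Global.Rec.CharSurj
import Fermat.Agent.CFT.Global.Rec.Assembly

/-!
# [F0] reciprocity package: `Global.Plan.CycloCrossing`, unconditionally

The wiring of the leaves:

* `Rec.Assembly.cycloCrossing_of : CrossData → PGroupAxiom → CycloCrossing` (cohomology),
* `Rec.Arith.crossData : ClassChar → CrossTower → CrossData` (class-group algebra),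
* `CrossTowerHolds.crossTower : CrossTower` (field theory: the auxiliary tame prime `ℓ`),
* `Rec.ClassChar.classChar_of_surj : ChiSurj → ClassChar` (the idelic cyclotomic character
  modulo `ℓ`: norm compatibility and reciprocity plugged in),
* `Rec.CharSurj.chiSurj : ChiSurj` (surjectivity at an unramified prime),
* `ChainHolds.pGroupAxiom : PGroupAxiom`.
-/

set_option autoImplicit false

namespace Fermat.Agent.CFT.Global.Rec.Main

open Fermat.Agent.CFT Fermat.Agent.CFT.Global

/-- The class character `Ψ` of the idelic cyclotomic character modulo a tame prime. -/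
theorem classChar : Plan.ClassChar :=
  ClassChar.classChar_of_surj CharSurj.chiSurj

/-- The crossing data. -/
theorem crossData : Plan.CrossData :=
  Arith.crossData classChar CrossTowerHolds.crossTower

/-- [F0] from the class character. -/
theorem cycloCrossing_of_classChar (hC : Plan.ClassChar) : Global.Plan.CycloCrossing :=
  Assembly.cycloCrossing_of (Arith.crossData hC CrossTowerHolds.crossTower) ChainHolds.pGroupAxiom

/-- **[F0] `Global.Plan.CycloCrossing`**, unconditionally. -/
theorem cycloCrossing : Global.Plan.CycloCrossing :=
  cycloCrossing_of_classChar classChar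

end Fermat.Agent.CFT.Global.Rec.Main
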